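import Mathlib
import Fermat.Agent.S14.CZ.Dedekind

/-!
# GR-G : Frobenius' density theorem (existence form) -- definitions
-/

set_option autoImplicit false

open NumberField IsDedekindDomain
open scoped nonZeroDivisors

namespace Fermat.Agent.GR.G

/-- number of ideals of norm `n` of the ring of integers of `K`. -/
noncomputable def cnt (K : Type*) [Field K] [NumberField K] (n : ℕ) : ℕ :=
  Nat.card {I : Ideal (𝓞 K) // Ideal.absNorm I = n}

/-- `∑_𝔮 N𝔮^{-s}` over all nonzero prime ideals. -/
noncomputable def primeZeta (K : Type*) [Field K] [NumberField K] (s : ℝ) : ℝ :=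
  ∑' v : HeightOneSpectrum (𝓞 K), (Ideal.absNorm v.asIdeal : ℝ) ^ (-s)

/-- the general term of `degOneSum`. -/
noncomputable def degOneTerm (K : Type*) [Field K] [NumberField K] (R : Finset ℕ) (s : ℝ)
    (p : ℕ) : ℝ :=
  if p.Prime ∧ p ∉ R then (cnt K p : ℝ) * (p : ℝ) ^ (-s) else 0

/-- `∑_{p ∉ R} #{𝔮 : N𝔮 = p} p^{-s}`: the sum over the primes of degree one, not above `R`. -/
noncomputable def degOneSum (K : Type*) [Field K] [NumberField K] (R : Finset ℕ) (s : ℝ) : ℝ :=
  ∑' p : ℕ, degOneTerm K R s p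

end Fermat.Agent.GR.G
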