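import Mathlib
import Fermat.Agent.GR.G.Defs

/-!
# GR-G / AN2 : only the primes of degree one matter
-/

set_option autoImplicit false

open NumberField IsDedekindDomain
open scoped nonZeroDivisors
open Fermat.Agent.S14.CZ

namespace Fermat.Agent.GR.G

variable (K : Type*) [Field K] [NumberField K]

/-- a prime, as a nonzero ideal -/
noncomputable def degree_iota (v : HeightOneSpectrum (𝓞 K)) : (Ideal (𝓞 K))⁰ :=
  ⟨v.asIdeal, mem_nonZeroDivisors_of_ne_zero v.ne_bot⟩

omit [NumberField K] in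
lemma degree_iota_coe (v : HeightOneSpectrum (𝓞 K)) :
    ((degree_iota K v : (Ideal (𝓞 K))⁰) : Ideal (𝓞 K)) = v.asIdeal := rfl

omit [NumberField K] in
lemma degree_iota_injective : Function.Injective (degree_iota K) := by
  intro v w h
  apply HeightOneSpectrum.ext
  rw [← degree_iota_coe, ← degree_iota_coe, h]

lemma degree_summable {s : ℝ} (hs : 1 < s) :
    Summable fun v : HeightOneSpectrum (𝓞 K) => (Ideal.absNorm v.asIdeal : ℝ) ^ (-s) := by
  have h := (summable_idealZeta K hs).comp_injective (degree_iota_injective K)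
  refine h.congr fun v => ?_
  rw [Function.comp_apply, degree_iota_coe]

/-- the weight of the degree one part, as a function of the norm -/
noncomputable def degree_G (R : Finset ℕ) (s : ℝ) (n : ℕ) : ℝ :=
  if n.Prime ∧ n ∉ R then (n : ℝ) ^ (-s) else 0

lemma degree_G_nonneg (R : Finset ℕ) (s : ℝ) (n : ℕ) : 0 ≤ degree_G R s n := by
  unfold degree_G
  split_ifs
  · exact Real.rpow_nonneg (Nat.cast_nonneg _) _
  · exact le_rfl

lemma degree_G_le (R : Finset ℕ) (s : ℝ) (n : ℕ) : degree_G R s n ≤ (n : ℝ) ^ (-s) := by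
  unfold degree_G
  split_ifs
  · exact le_rfl
  · exact Real.rpow_nonneg (Nat.cast_nonneg _) _

/-- the primes of norm `n` -/
abbrev degree_fib (n : ℕ) : Type _ :=
  {v : HeightOneSpectrum (𝓞 K) // Ideal.absNorm v.asIdeal = n}

instance degree_finite_fib (n : ℕ) : Finite (degree_fib K n) := by
  have h : Finite {I : Ideal (𝓞 K) // Ideal.absNorm I = n} :=
    (Ideal.finite_setOfPred_absNorm_eq n)
  refine Finite.of_injective
    (fun v : degree_fib K n => (⟨v.1.asIdeal, v.2⟩ : {I : Ideal (𝓞 K) // Ideal.absNorm I = n})) ?_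
  intro v w hvw
  apply Subtype.ext
  apply HeightOneSpectrum.ext
  exact congrArg (fun x : {I : Ideal (𝓞 K) // Ideal.absNorm I = n} => x.1) hvw

lemma degree_card_fib {p : ℕ} (hp : p.Prime) : Nat.card (degree_fib K p) = cnt K p := by
  unfold cnt
  refine Nat.card_congr
    { toFun := fun v => ⟨v.1.asIdeal, v.2⟩
      invFun := fun I => ⟨⟨I.1, Ideal.isPrime_of_irreducible_absNorm
          (by rw [I.2]; exact (Nat.irreducible_iff_nat_prime _).mpr hp), by
            intro h
            have := I.2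
            rw [h, Ideal.absNorm_bot] at this
            exact hp.ne_zero this.symm⟩, I.2⟩
      left_inv := fun v => rfl
      right_inv := fun I => rfl }

lemma degree_summable_G (R : Finset ℕ) {s : ℝ} (hs : 1 < s) :
    Summable fun v : HeightOneSpectrum (𝓞 K) => degree_G R s (Ideal.absNorm v.asIdeal) :=
  Summable.of_nonneg_of_le (fun _ => degree_G_nonneg R s _) (fun _ => degree_G_le R s _)
    (degree_summable K hs)

lemma degree_tsum_fib (R : Finset ℕ) (s : ℝ) (n : ℕ) :
    ∑' v : degree_fib K n, degree_G R s (Ideal.absNorm v.1.asIdeal) = degOneTerm K R s n := by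
  have h1 : ∀ v : degree_fib K n, degree_G R s (Ideal.absNorm v.1.asIdeal) = degree_G R s n :=
    fun v => by rw [v.2]
  rw [tsum_congr h1, tsum_const, nsmul_eq_mul]
  unfold degOneTerm degree_G
  split_ifs with h
  · rw [degree_card_fib K h.1]
  · rw [mul_zero]

lemma degree_summable_sigma (R : Finset ℕ) {s : ℝ} (hs : 1 < s) :
    Summable fun x : (Σ n : ℕ, degree_fib K n) =>
      degree_G R s (Ideal.absNorm x.2.1.asIdeal) := by
  have h := degree_summable_G K R hs
  rw [← (Equiv.sigmaFiberEquiv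
    (fun v : HeightOneSpectrum (𝓞 K) => Ideal.absNorm v.asIdeal)).summable_iff] at h
  exact h

theorem summable_degOneTerm (R : Finset ℕ) {s : ℝ} (hs : 1 < s) :
    Summable (degOneTerm K R s) := by
  have h := (degree_summable_sigma K R hs).sigma
  simp only [degree_tsum_fib] at h
  exact h

lemma degree_tsum_G (R : Finset ℕ) {s : ℝ} (hs : 1 < s) :
    ∑' v : HeightOneSpectrum (𝓞 K), degree_G R s (Ideal.absNorm v.asIdeal) =
      degOneSum K R s := by
  unfold degOneSum
  rw [← (Equiv.sigmaFiberEquiv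
    (fun v : HeightOneSpectrum (𝓞 K) => Ideal.absNorm v.asIdeal)).tsum_eq]
  have h := (degree_summable_sigma K R hs).tsum_sigma' (fun n => Summable.of_finite)
  refine h.trans ?_
  simp only [degree_tsum_fib]

/-- the rational prime below `v` -/
noncomputable def degree_pi (v : HeightOneSpectrum (𝓞 K)) : ℕ := (Ideal.absNorm v.asIdeal).minFac

lemma degree_pi_spec (v : HeightOneSpectrum (𝓞 K)) :
    (degree_pi K v).Prime ∧ ((degree_pi K v : ℕ) : 𝓞 K) ∈ v.asIdeal ∧
      ∃ n, 0 < n ∧ Ideal.absNorm v.asIdeal = degree_pi K v ^ n := by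
  have := v.isMaximal
  obtain ⟨p, n, hn, hpv, hp, h⟩ := Ideal.exists_prime_and_absNorm_eq_pow v.asIdeal
  have : degree_pi K v = p := by
    unfold degree_pi
    rw [h, hp.pow_minFac hn.ne']
  rw [this]
  exact ⟨hp, hpv, n, hn, h⟩

lemma degree_card_le (p : ℕ) (F : Finset (HeightOneSpectrum (𝓞 K)))
    (hF : ∀ v ∈ F, degree_pi K v = p) : F.card ≤ Module.finrank ℤ (𝓞 K) := by
  rcases F.eq_empty_or_nonempty with rfl | ⟨v0, hv0⟩
  · simp
  have hp : p.Prime := by rw [← hF v0 hv0]; exact (degree_pi_spec K v0).1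
  have hinj : Set.InjOn (fun v : HeightOneSpectrum (𝓞 K) => v.asIdeal) F :=
    fun v _ w _ h => HeightOneSpectrum.ext h
  have h1 : ∏ I ∈ F.image (fun v : HeightOneSpectrum (𝓞 K) => v.asIdeal), I ∣
      Ideal.span {((p : ℕ) : 𝓞 K)} := by
    refine Finset.prod_primes_dvd _ ?_ ?_
    · intro I hI
      obtain ⟨v, _, rfl⟩ := Finset.mem_image.mp hI
      exact v.prime
    · intro I hI
      obtain ⟨v, hv, rfl⟩ := Finset.mem_image.mp hI
      rw [Ideal.dvd_span_singleton, ← hF v hv]
      exact (degree_pi_spec K v).2.1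
  rw [Finset.prod_image hinj] at h1
  have h2 : Ideal.absNorm (∏ v ∈ F, v.asIdeal) ∣ p ^ Module.finrank ℤ (𝓞 K) := by
    rw [← Ideal.absNorm_span_natCast]
    exact Ideal.absNorm_dvd_absNorm_of_le (Ideal.le_of_dvd h1)
  rw [map_prod] at h2
  have h3 : p ^ F.card ≤ ∏ v ∈ F, Ideal.absNorm v.asIdeal := by
    rw [← Finset.prod_const]
    refine Finset.prod_le_prod' fun v hv => ?_
    obtain ⟨_, _, n, hn, h⟩ := degree_pi_spec K v
    rw [h, hF v hv]
    exact Nat.le_self_pow hn.ne' p
  have h4 : p ^ F.card ≤ p ^ Module.finrank ℤ (𝓞 K) :=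
    h3.trans (Nat.le_of_dvd (pow_pos hp.pos _) h2)
  exact (Nat.pow_le_pow_iff_right hp.one_lt).mp h4

/-- the majorant, as a function of the prime below -/
noncomputable def degree_h (R : Finset ℕ) (p : ℕ) : ℝ :=
  (if p ∈ R then 1 else 0) + ((p : ℝ) ^ 2)⁻¹

lemma degree_h_nonneg (R : Finset ℕ) (p : ℕ) : 0 ≤ degree_h R p := by
  unfold degree_h
  have : (0 : ℝ) ≤ ((p : ℝ) ^ 2)⁻¹ := by positivity
  split_ifs <;> linarith

lemma degree_summable_h (R : Finset ℕ) : Summable (degree_h R) := by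
  unfold degree_h
  refine Summable.add ?_ (Real.summable_nat_pow_inv.mpr (by norm_num))
  refine summable_of_ne_finset_zero (s := R) fun p hp => ?_
  rw [if_neg hp]

lemma degree_term_le (R : Finset ℕ) {s : ℝ} (hs : 1 < s) (v : HeightOneSpectrum (𝓞 K)) :
    (Ideal.absNorm v.asIdeal : ℝ) ^ (-s) - degree_G R s (Ideal.absNorm v.asIdeal) ≤
      degree_h R (degree_pi K v) := by
  obtain ⟨hp, _, n, hn, h⟩ := degree_pi_spec K v
  set p := degree_pi K v with hpdef
  have hN1 : (1 : ℝ) ≤ (Ideal.absNorm v.asIdeal : ℝ) := by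
    rw [h]
    exact_mod_cast Nat.one_le_pow _ _ hp.pos
  have hle1 : (Ideal.absNorm v.asIdeal : ℝ) ^ (-s) ≤ 1 :=
    Real.rpow_le_one_of_one_le_of_nonpos hN1 (by linarith)
  have hinv : (0 : ℝ) ≤ ((p : ℝ) ^ 2)⁻¹ := by positivity
  by_cases hA : (Ideal.absNorm v.asIdeal).Prime ∧ Ideal.absNorm v.asIdeal ∉ R
  · have : degree_G R s (Ideal.absNorm v.asIdeal) = (Ideal.absNorm v.asIdeal : ℝ) ^ (-s) := by
      unfold degree_G; rw [if_pos hA]
    rw [this, sub_self]
    exact degree_h_nonneg R _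
  · have : degree_G R s (Ideal.absNorm v.asIdeal) = 0 := by
      unfold degree_G; rw [if_neg hA]
    rw [this, sub_zero]
    by_cases hpr : (Ideal.absNorm v.asIdeal).Prime
    · have hR : Ideal.absNorm v.asIdeal ∈ R := by
        by_contra hR
        exact hA ⟨hpr, hR⟩
      have hpe : p = Ideal.absNorm v.asIdeal := by
        rw [hpdef]; unfold degree_pi; exact hpr.minFac_eq
      unfold degree_h
      rw [if_pos (by rw [hpe]; exact hR)]
      linarith
    · have hn2 : 2 ≤ n := by
        by_contra hlt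
        have : n = 1 := by omega
        rw [this, pow_one] at h
        exact hpr (h ▸ hp)
      have h1 : (Ideal.absNorm v.asIdeal : ℝ) ^ (-s) ≤ (Ideal.absNorm v.asIdeal : ℝ) ^ (-1 : ℝ) :=
        Real.rpow_le_rpow_of_exponent_le hN1 (by linarith)
      have h2 : (Ideal.absNorm v.asIdeal : ℝ) ^ (-1 : ℝ) ≤ ((p : ℝ) ^ 2)⁻¹ := by
        rw [Real.rpow_neg_one]
        have hp0 : (0 : ℝ) < (p : ℝ) ^ 2 := by
          have : (0 : ℝ) < p := by exact_mod_cast hp.pos
          positivity
        apply inv_anti₀ hp0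
        rw [h]
        push_cast
        exact pow_le_pow_right₀ (by exact_mod_cast hp.one_lt.le) hn2
      unfold degree_h
      have : (0 : ℝ) ≤ (if p ∈ R then (1 : ℝ) else 0) := by split_ifs <;> norm_num
      linarith

lemma degree_sum_le (R : Finset ℕ) (F : Finset (HeightOneSpectrum (𝓞 K))) :
    ∑ v ∈ F, degree_h R (degree_pi K v) ≤
      (Module.finrank ℤ (𝓞 K) : ℝ) * ∑' p : ℕ, degree_h R p := by
  classical
  rw [← Finset.sum_fiberwise_of_maps_to (s := F) (t := F.image (degree_pi K)) (g := degree_pi K)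
    (fun v hv => Finset.mem_image_of_mem _ hv)]
  have h1 : ∀ p ∈ F.image (degree_pi K),
      ∑ v ∈ F with degree_pi K v = p, degree_h R (degree_pi K v) ≤
        (Module.finrank ℤ (𝓞 K) : ℝ) * degree_h R p := by
    intro p _
    have h2 : ∑ v ∈ F with degree_pi K v = p, degree_h R (degree_pi K v) =
        ((F.filter fun v => degree_pi K v = p).card : ℝ) * degree_h R p := by
      rw [Finset.sum_congr rfl (fun v hv => by rw [(Finset.mem_filter.mp hv).2]),
        Finset.sum_const, nsmul_eq_mul]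
    rw [h2]
    refine mul_le_mul_of_nonneg_right ?_ (degree_h_nonneg R p)
    exact_mod_cast degree_card_le K p _ (fun v hv => (Finset.mem_filter.mp hv).2)
  refine (Finset.sum_le_sum h1).trans ?_
  rw [← Finset.mul_sum]
  refine mul_le_mul_of_nonneg_left ?_ (Nat.cast_nonneg _)
  exact (degree_summable_h R).sum_le_tsum _ (fun p _ => degree_h_nonneg R p)

theorem exists_abs_primeZeta_sub_degOneSum_le (R : Finset ℕ) :
    ∃ C : ℝ, ∀ s : ℝ, 1 < s → |primeZeta K s - degOneSum K R s| ≤ C := by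
  refine ⟨(Module.finrank ℤ (𝓞 K) : ℝ) * ∑' p : ℕ, degree_h R p, fun s hs => ?_⟩
  have hC : 0 ≤ (Module.finrank ℤ (𝓞 K) : ℝ) * ∑' p : ℕ, degree_h R p :=
    mul_nonneg (Nat.cast_nonneg _) (tsum_nonneg (degree_h_nonneg R))
  rw [← degree_tsum_G K R hs]
  unfold primeZeta
  rw [← (degree_summable K hs).tsum_sub (degree_summable_G K R hs)]
  have hnn : ∀ v : HeightOneSpectrum (𝓞 K),
      0 ≤ (Ideal.absNorm v.asIdeal : ℝ) ^ (-s) - degree_G R s (Ideal.absNorm v.asIdeal) :=
    fun v => sub_nonneg.mpr (degree_G_le R s _)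
  rw [abs_of_nonneg (tsum_nonneg hnn)]
  refine Real.tsum_le_of_sum_le hnn fun F => ?_
  exact (Finset.sum_le_sum fun v _ => degree_term_le K R hs v).trans (degree_sum_le K R F)

end Fermat.Agent.GR.G
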