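import Mathlib
import Fermat.Agent.GR.G.Defs

/-!
# GR-G / AN1 : Euler product inequalities

`primeZeta K s ≤ log (idealZeta K s) ≤ primeZeta K s + log 2 + primeZeta K 2`  for `s > 1`.

PROOF SKETCH.  `f I := (absNorm I)^(-s)` is completely multiplicative on nonzero ideals, summable
(`Fermat.Agent.S14.CZ.summable_idealZeta`).
* (E2) `euler_finite`: induction on `T`.  For `v ∉ T`, `I ↦ v * I` is a bijection from
  `{I coprime to T}` onto `{J coprime to T, v ∣ J}` and `f (v * I) = f v * f I`.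
* (U) the right-hand side of (E2) is `≥ f 1 = 1`, so `∏_{v ∈ T} (1 - f v)⁻¹ ≤ Z(s)`; with
  `x ≤ -log (1 - x)` all finite partial sums of `primeZeta` are `≤ log Z(s)`.
* (L) choose a finite set `𝓕` of ideals with `∑_{I ∉ 𝓕} f I ≤ 1`, `T` := all primes dividing some
  `I ∈ 𝓕`, `I ≠ 1`.  Then the right-hand side of (E2) is `≤ 2`; use `-log (1 - x) ≤ x + x^2` for `0 ≤ x ≤ 1/2`.
-/

set_option autoImplicit false

open NumberField IsDedekindDomain
open scoped nonZeroDivisors
open Fermat.Agent.S14.CZ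

namespace Fermat.Agent.GR.G

variable (K : Type*) [Field K] [NumberField K]

/-- the general term `N I ^ (-s)`. -/
noncomputable def euler_f (s : ℝ) (I : (Ideal (𝓞 K))⁰) : ℝ :=
  (Ideal.absNorm (I : Ideal (𝓞 K)) : ℝ) ^ (-s)

/-- ideals prime to `T`. -/
def euler_S (T : Finset (HeightOneSpectrum (𝓞 K))) : Set (Ideal (𝓞 K))⁰ :=
  {I | ∀ v ∈ T, ¬ v.asIdeal ∣ (I : Ideal (𝓞 K))}

/-- a prime as a nonzero ideal. -/
noncomputable def euler_v (v : HeightOneSpectrum (𝓞 K)) : (Ideal (𝓞 K))⁰ :=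
  ⟨v.asIdeal, mem_nonZeroDivisors_of_ne_zero v.ne_bot⟩

variable {K}

lemma euler_f_mul (s : ℝ) (I J : (Ideal (𝓞 K))⁰) :
    euler_f K s (I * J) = euler_f K s I * euler_f K s J := by
  unfold euler_f
  rw [Submonoid.coe_mul, map_mul, Nat.cast_mul,
    Real.mul_rpow (Nat.cast_nonneg _) (Nat.cast_nonneg _)]

lemma euler_f_one (s : ℝ) : euler_f K s 1 = 1 := by
  unfold euler_f
  simp

lemma euler_f_nonneg (s : ℝ) (I : (Ideal (𝓞 K))⁰) : 0 ≤ euler_f K s I :=
  Real.rpow_nonneg (Nat.cast_nonneg _) _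

lemma euler_summable {s : ℝ} (hs : 1 < s) : Summable (euler_f K s) := summable_idealZeta K hs

lemma euler_summable_indicator {s : ℝ} (hs : 1 < s) (S : Set (Ideal (𝓞 K))⁰) :
    Summable (S.indicator (euler_f K s)) := (euler_summable hs).indicator S

omit [NumberField K] in
lemma euler_v_injective : Function.Injective (euler_v K) := by
  intro v w h
  exact HeightOneSpectrum.ext (congrArg Subtype.val h)

lemma euler_dvd_iff_eq {v w : HeightOneSpectrum (𝓞 K)} : w.asIdeal ∣ v.asIdeal ↔ w = v := by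
  constructor
  · intro h
    have h1 := (w.prime.dvd_prime_iff_associated v.prime).mp h
    exact HeightOneSpectrum.ext (associated_iff_eq.mp h1)
  · rintro rfl
    exact dvd_rfl

lemma euler_mul_mem_S {T : Finset (HeightOneSpectrum (𝓞 K))} {v : HeightOneSpectrum (𝓞 K)}
    (hv : v ∉ T) (J : (Ideal (𝓞 K))⁰) : euler_v K v * J ∈ euler_S K T ↔ J ∈ euler_S K T := by
  unfold euler_S
  simp only [Set.mem_ofPred_eq]
  refine forall₂_congr (fun w hw => ?_)
  rw [Submonoid.coe_mul, w.prime.dvd_mul]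
  have : ¬ w.asIdeal ∣ ((euler_v K v : (Ideal (𝓞 K))⁰) : Ideal (𝓞 K)) := by
    intro h
    exact hv ((euler_dvd_iff_eq.mp h) ▸ hw)
  tauto

lemma euler_tsum_insert [DecidableEq (HeightOneSpectrum (𝓞 K))]
    {T : Finset (HeightOneSpectrum (𝓞 K))} {v : HeightOneSpectrum (𝓞 K)}
    (hv : v ∉ T) {s : ℝ} (hs : 1 < s) :
    ∑' I, (euler_S K (insert v T)).indicator (euler_f K s) I =
      (1 - euler_f K s (euler_v K v)) * ∑' I, (euler_S K T).indicator (euler_f K s) I := by
  have hdec : ∀ I : (Ideal (𝓞 K))⁰, Decidable (v.asIdeal ∣ (I : Ideal (𝓞 K))) :=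
    fun _ => Classical.propDecidable _
  set g := (euler_S K T).indicator (euler_f K s) with hg
  let h : (Ideal (𝓞 K))⁰ → ℝ := fun I => if v.asIdeal ∣ (I : Ideal (𝓞 K)) then g I else 0
  have hgs : Summable g := euler_summable_indicator hs _
  have hhs : Summable h := by
    refine Summable.of_nonneg_of_le (fun I => ?_) (fun I => ?_) hgs
    · simp only [h]
      split_ifs
      · exact Set.indicator_nonneg (fun I _ => euler_f_nonneg s I) I
      · exact le_rfl
    · simp only [h]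
      split_ifs
      · exact le_rfl
      · exact Set.indicator_nonneg (fun I _ => euler_f_nonneg s I) I
  have h1 : ∀ I, (euler_S K (insert v T)).indicator (euler_f K s) I = g I - h I := by
    intro I
    by_cases hvI : v.asIdeal ∣ (I : Ideal (𝓞 K))
    · have : I ∉ euler_S K (insert v T) := fun hI => hI v (Finset.mem_insert_self v T) hvI
      simp [h, hvI, Set.indicator_of_notMem this]
    · have : I ∈ euler_S K (insert v T) ↔ I ∈ euler_S K T := by
        unfold euler_S
        simp only [Set.mem_ofPred_eq, Finset.forall_mem_insert]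
        tauto
      simp only [h, hvI, if_false, sub_zero, hg]
      by_cases hI : I ∈ euler_S K T
      · rw [Set.indicator_of_mem hI, Set.indicator_of_mem (this.mpr hI)]
      · rw [Set.indicator_of_notMem hI, Set.indicator_of_notMem (fun h' => hI (this.mp h'))]
  have hinj : Function.Injective (fun J : (Ideal (𝓞 K))⁰ => euler_v K v * J) :=
    mul_right_injective _
  have hsupp : Function.support h ⊆ Set.range (fun J : (Ideal (𝓞 K))⁰ => euler_v K v * J) := by
    intro I hI
    have hvI : v.asIdeal ∣ (I : Ideal (𝓞 K)) := by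
      by_contra hn
      exact hI (by simp [h, hn])
    obtain ⟨J, hJ⟩ := hvI
    have hJ0 : J ≠ 0 := by
      rintro rfl
      rw [mul_zero] at hJ
      exact nonZeroDivisors.coe_ne_zero I hJ
    exact ⟨⟨J, mem_nonZeroDivisors_of_ne_zero hJ0⟩, Subtype.ext hJ.symm⟩
  have h2 : ∑' I, h I = euler_f K s (euler_v K v) * ∑' I, g I := by
    rw [← hinj.tsum_eq hsupp, ← tsum_mul_left]
    refine tsum_congr (fun J => ?_)
    have hd : v.asIdeal ∣ ((euler_v K v * J : (Ideal (𝓞 K))⁰) : Ideal (𝓞 K)) :=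
      Dvd.intro _ rfl
    simp only [h, hd, if_true, hg]
    by_cases hJ : J ∈ euler_S K T
    · rw [Set.indicator_of_mem hJ, Set.indicator_of_mem ((euler_mul_mem_S hv J).mpr hJ),
        euler_f_mul]
    · rw [Set.indicator_of_notMem hJ,
        Set.indicator_of_notMem (fun h' => hJ ((euler_mul_mem_S hv J).mp h')), mul_zero]
  rw [tsum_congr h1, hgs.tsum_sub hhs, h2]
  ring

lemma euler_finite_aux (T : Finset (HeightOneSpectrum (𝓞 K))) {s : ℝ} (hs : 1 < s) :
    (∏ v ∈ T, (1 - euler_f K s (euler_v K v))) * idealZeta K s =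
      ∑' I, (euler_S K T).indicator (euler_f K s) I := by
  classical
  induction T using Finset.induction_on with
  | empty =>
    have : euler_S K (∅ : Finset (HeightOneSpectrum (𝓞 K))) = Set.univ := by
      unfold euler_S
      simp
    rw [this, Set.indicator_univ, Finset.prod_empty, one_mul]
    rfl
  | insert v T hv ih =>
    rw [Finset.prod_insert hv, mul_assoc, ih, euler_tsum_insert hv hs]

variable (K)

/-- (E2) the finite Euler identity. -/
theorem euler_finite (T : Finset (HeightOneSpectrum (𝓞 K))) {s : ℝ} (hs : 1 < s) :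
    (∏ v ∈ T, (1 - (Ideal.absNorm v.asIdeal : ℝ) ^ (-s))) * idealZeta K s =
      ∑' I : {I : (Ideal (𝓞 K))⁰ // ∀ v ∈ T, ¬ v.asIdeal ∣ (I : Ideal (𝓞 K))},
        (Ideal.absNorm (I.1 : Ideal (𝓞 K)) : ℝ) ^ (-s) := by
  have h := euler_finite_aux T hs
  rw [← tsum_subtype (euler_S K T) (euler_f K s)] at h
  exact h

theorem summable_primeZeta {s : ℝ} (hs : 1 < s) :
    Summable fun v : HeightOneSpectrum (𝓞 K) => (Ideal.absNorm v.asIdeal : ℝ) ^ (-s) := by
  have h := (euler_summable (K := K) hs).comp_injective (euler_v_injective (K := K))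
  exact h

variable {K}

lemma euler_two_le_absNorm (v : HeightOneSpectrum (𝓞 K)) : 2 ≤ Ideal.absNorm v.asIdeal := by
  have h0 : Ideal.absNorm v.asIdeal ≠ 0 := by
    rw [Ne, Ideal.absNorm_eq_zero_iff]
    exact v.ne_bot
  have h1 : Ideal.absNorm v.asIdeal ≠ 1 := by
    rw [Ne, Ideal.absNorm_eq_one_iff]
    exact v.isPrime.ne_top
  omega

lemma euler_f_v_le_half {s : ℝ} (hs : 1 < s) (v : HeightOneSpectrum (𝓞 K)) :
    euler_f K s (euler_v K v) ≤ 1 / 2 := by
  have h2 : (2 : ℝ) ≤ (Ideal.absNorm v.asIdeal : ℝ) := by exact_mod_cast euler_two_le_absNorm v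
  have h3 : ((Ideal.absNorm v.asIdeal : ℝ)) ^ (-s) ≤ (2 : ℝ) ^ (-s) :=
    Real.rpow_le_rpow_of_nonpos (by norm_num) h2 (by linarith)
  have h4 : (2 : ℝ) ^ (-s) ≤ (2 : ℝ) ^ (-1 : ℝ) :=
    Real.rpow_le_rpow_of_exponent_le (by norm_num) (by linarith)
  have h5 : (2 : ℝ) ^ (-1 : ℝ) = 1 / 2 := by
    rw [Real.rpow_neg_one]
    norm_num
  calc euler_f K s (euler_v K v) = ((Ideal.absNorm v.asIdeal : ℝ)) ^ (-s) := rfl
    _ ≤ 1 / 2 := (h3.trans h4).trans h5.le

lemma euler_f_v_sq_le {s : ℝ} (hs : 1 < s) (v : HeightOneSpectrum (𝓞 K)) :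
    euler_f K s (euler_v K v) ^ 2 ≤ euler_f K 2 (euler_v K v) := by
  have h1 : (1 : ℝ) ≤ (Ideal.absNorm v.asIdeal : ℝ) := by
    have := euler_two_le_absNorm v
    exact_mod_cast (by omega : 1 ≤ Ideal.absNorm v.asIdeal)
  show (((Ideal.absNorm v.asIdeal : ℝ)) ^ (-s)) ^ 2 ≤ ((Ideal.absNorm v.asIdeal : ℝ)) ^ (-2 : ℝ)
  rw [← Real.rpow_natCast, ← Real.rpow_mul (by linarith)]
  refine Real.rpow_le_rpow_of_exponent_le h1 ?_
  push_cast
  linarith

lemma euler_one_mem_S (T : Finset (HeightOneSpectrum (𝓞 K))) : (1 : (Ideal (𝓞 K))⁰) ∈ euler_S K T := by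
  intro v _ hv
  have h1 : v.asIdeal ∣ (1 : Ideal (𝓞 K)) := hv
  exact v.prime.not_isUnit (isUnit_of_dvd_one h1)

lemma euler_one_le_tsum (T : Finset (HeightOneSpectrum (𝓞 K))) {s : ℝ} (hs : 1 < s) :
    1 ≤ ∑' I, (euler_S K T).indicator (euler_f K s) I := by
  have h := (euler_summable_indicator hs (euler_S K T)).le_tsum (1 : (Ideal (𝓞 K))⁰)
    (fun I _ => Set.indicator_nonneg (fun I _ => euler_f_nonneg s I) I)
  rwa [Set.indicator_of_mem (euler_one_mem_S T), euler_f_one] at h

lemma euler_eq_one_of_forall_not_dvd (I : (Ideal (𝓞 K))⁰)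
    (h : ∀ v : HeightOneSpectrum (𝓞 K), ¬ v.asIdeal ∣ (I : Ideal (𝓞 K))) : I = 1 := by
  by_contra hI
  have hI' : (I : Ideal (𝓞 K)) ≠ ⊤ := by
    intro h1
    apply hI
    apply Subtype.ext
    rw [h1, Submonoid.coe_one, Ideal.one_eq_top]
  obtain ⟨m, hm, hIm⟩ := Ideal.exists_le_maximal _ hI'
  have hm0 : m ≠ ⊥ := by
    rintro rfl
    exact nonZeroDivisors.coe_ne_zero I (le_bot_iff.mp hIm)
  exact h ⟨m, hm.isPrime, hm0⟩ (Ideal.dvd_iff_le.mpr hIm)

lemma euler_neg_log_le {x : ℝ} (h0 : 0 ≤ x) (h1 : x ≤ 1 / 2) :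
    -Real.log (1 - x) ≤ x + x ^ 2 := by
  have hpos : 0 < 1 - x := by linarith
  rw [← Real.log_inv, Real.log_le_iff_le_exp (inv_pos.mpr hpos)]
  have hy : 0 ≤ x + x ^ 2 := by positivity
  have h2 := Real.quadratic_le_exp_of_nonneg hy
  refine le_trans ?_ h2
  rw [inv_le_iff_one_le_mul₀ hpos]
  have h3 : x ^ 2 ≤ 1 / 4 := by nlinarith
  have h4 : x ^ 3 ≤ 1 / 8 := by nlinarith
  have h5 : (1 - x) * (1 + (x + x ^ 2) + (x + x ^ 2) ^ 2 / 2) - 1 =
      x ^ 2 / 2 * (1 - x - x ^ 2 - x ^ 3) := by ring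
  have h6 : 0 ≤ x ^ 2 / 2 * (1 - x - x ^ 2 - x ^ 3) :=
    mul_nonneg (by positivity) (by linarith)
  linarith

lemma euler_le_neg_log {x : ℝ} (h1 : x < 1) : x ≤ -Real.log (1 - x) := by
  have := Real.log_le_sub_one_of_pos (by linarith : 0 < 1 - x)
  linarith

lemma euler_log_identity (T : Finset (HeightOneSpectrum (𝓞 K))) {s : ℝ} (hs : 1 < s) :
    Real.log (∑' I, (euler_S K T).indicator (euler_f K s) I) =
      ∑ v ∈ T, Real.log (1 - euler_f K s (euler_v K v)) + Real.log (idealZeta K s) := by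
  have hZ : idealZeta K s ≠ 0 := by
    have := Dedekind_one_le_idealZeta K hs
    linarith
  have hne : ∀ v ∈ T, 1 - euler_f K s (euler_v K v) ≠ 0 := by
    intro v _
    have := euler_f_v_le_half hs v
    linarith
  rw [← euler_finite_aux T hs, Real.log_mul (Finset.prod_ne_zero_iff.mpr hne) hZ,
    Real.log_prod hne]

variable (K)

theorem primeZeta_le_log {s : ℝ} (hs : 1 < s) :
    primeZeta K s ≤ Real.log (idealZeta K s) := by
  refine (summable_primeZeta K hs).tsum_le_of_sum_le (fun T => ?_)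
  have h1 := euler_log_identity T hs
  have h2 : 0 ≤ Real.log (∑' I, (euler_S K T).indicator (euler_f K s) I) :=
    Real.log_nonneg (euler_one_le_tsum T hs)
  have h3 : ∑ v ∈ T, euler_f K s (euler_v K v) ≤
      ∑ v ∈ T, -Real.log (1 - euler_f K s (euler_v K v)) := by
    refine Finset.sum_le_sum (fun v _ => euler_le_neg_log ?_)
    have := euler_f_v_le_half hs v
    linarith
  rw [Finset.sum_neg_distrib] at h3
  have h4 : ∑ v ∈ T, (Ideal.absNorm v.asIdeal : ℝ) ^ (-s) =
      ∑ v ∈ T, euler_f K s (euler_v K v) := rfl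
  rw [h4]
  linarith

theorem log_le_primeZeta {s : ℝ} (hs : 1 < s) :
    Real.log (idealZeta K s) ≤ primeZeta K s + Real.log 2 + primeZeta K 2 := by
  classical
  have hsum := euler_summable (K := K) hs
  obtain ⟨F, hF⟩ := (hsum.hasSum.eventually
    (lt_mem_nhds (sub_one_lt (∑' I, euler_f K s I)))).exists
  let T : Finset (HeightOneSpectrum (𝓞 K)) :=
    F.biUnion (fun I => (Ideal.finite_factors (nonZeroDivisors.coe_ne_zero I)).toFinset)
  -- the sum over ideals prime to `T` is at most `2`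
  have hle : ∑' I, (euler_S K T).indicator (euler_f K s) I ≤ 2 := by
    have hpt : ∀ I, (euler_S K T).indicator (euler_f K s) I ≤
        (if I = 1 then (1 : ℝ) else 0) + ((F : Set (Ideal (𝓞 K))⁰)ᶜ).indicator (euler_f K s) I := by
      intro I
      have hn : 0 ≤ ((F : Set (Ideal (𝓞 K))⁰)ᶜ).indicator (euler_f K s) I :=
        Set.indicator_nonneg (fun I _ => euler_f_nonneg s I) I
      have hn' : (0 : ℝ) ≤ (if I = 1 then (1 : ℝ) else 0) := by split_ifs <;> norm_num
      by_cases hI : I ∈ euler_S K T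
      · rw [Set.indicator_of_mem hI]
        by_cases hIF : I ∈ F
        · have hI1 : I = 1 := by
            apply euler_eq_one_of_forall_not_dvd
            intro v hv
            refine hI v ?_ hv
            rw [Finset.mem_biUnion]
            exact ⟨I, hIF, by simpa using hv⟩
          rw [hI1, euler_f_one, if_pos rfl]
          have : 0 ≤ ((F : Set (Ideal (𝓞 K))⁰)ᶜ).indicator (euler_f K s) 1 :=
            Set.indicator_nonneg (fun I _ => euler_f_nonneg s I) 1
          linarith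
        · have : I ∈ ((F : Set (Ideal (𝓞 K))⁰)ᶜ) := by simpa using hIF
          rw [Set.indicator_of_mem this]
          linarith
      · rw [Set.indicator_of_notMem hI]
        linarith
    have hs1 : Summable (fun I : (Ideal (𝓞 K))⁰ => (if I = 1 then (1 : ℝ) else 0)) :=
      (hasSum_ite_eq 1 (1 : ℝ)).summable
    have hs2 := euler_summable_indicator hs ((F : Set (Ideal (𝓞 K))⁰)ᶜ)
    have h1 := (euler_summable_indicator hs (euler_S K T)).tsum_le_tsum hpt (hs1.add hs2)
    rw [hs1.tsum_add hs2, tsum_ite_eq] at h1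
    have h2 := hsum.sum_add_tsum_compl (s := F)
    rw [tsum_subtype] at h2
    linarith
  have h1 := euler_log_identity T hs
  have h2 : Real.log (∑' I, (euler_S K T).indicator (euler_f K s) I) ≤ Real.log 2 :=
    Real.log_le_log (lt_of_lt_of_le one_pos (euler_one_le_tsum T hs)) hle
  have h3 : ∑ v ∈ T, -Real.log (1 - euler_f K s (euler_v K v)) ≤
      ∑ v ∈ T, (euler_f K s (euler_v K v) + euler_f K 2 (euler_v K v)) := by
    refine Finset.sum_le_sum (fun v _ => ?_)
    have := euler_neg_log_le (euler_f_nonneg s (euler_v K v)) (euler_f_v_le_half hs v)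
    have := euler_f_v_sq_le hs v
    linarith
  rw [Finset.sum_neg_distrib, Finset.sum_add_distrib] at h3
  have h4 : ∑ v ∈ T, euler_f K s (euler_v K v) ≤ primeZeta K s :=
    (summable_primeZeta K hs).sum_le_tsum T (fun v _ => euler_f_nonneg s (euler_v K v))
  have h5 : ∑ v ∈ T, euler_f K 2 (euler_v K v) ≤ primeZeta K 2 :=
    (summable_primeZeta K (by norm_num : (1 : ℝ) < 2)).sum_le_tsum T
      (fun v _ => euler_f_nonneg 2 (euler_v K v))
  linarith

end Fermat.Agent.GR.G
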