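import Mathlib
import Fermat.Agent.GR.G.Degree
import Fermat.Agent.GR.G.Euler

/-!
# GR-G / AN3 : `degOneSum K R s = log (1/(s-1)) + O(1)` on `(1,2]`
-/

set_option autoImplicit false

open NumberField IsDedekindDomain
open scoped nonZeroDivisors
open Fermat.Agent.S14.CZ

namespace Fermat.Agent.GR.G

variable (K : Type*) [Field K] [NumberField K]

theorem exists_abs_degOneSum_sub_log_le (R : Finset ℕ) :
    ∃ B : ℝ, ∀ s : ℝ, 1 < s → s ≤ 2 → |degOneSum K R s - Real.log (1 / (s - 1))| ≤ B := by
  obtain ⟨C, hC⟩ := exists_abs_primeZeta_sub_degOneSum_le K R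
  obtain ⟨A, hA0, hA⟩ := exists_idealZeta_le K
  obtain ⟨c, hc0, hc⟩ := exists_le_idealZeta K
  refine ⟨C + Real.log 2 + primeZeta K 2 + |Real.log A| + |Real.log c|, fun s hs1 hs2 => ?_⟩
  have h1 := hC s hs1
  have h2 := primeZeta_le_log K hs1
  have h3 := log_le_primeZeta K hs1
  have hs0 : 0 < s - 1 := by linarith
  have hZ : 0 < idealZeta K s := lt_of_lt_of_le one_pos (Dedekind_one_le_idealZeta K hs1)
  have h4 : Real.log (idealZeta K s) =
      Real.log (1 / (s - 1)) + Real.log ((s - 1) * idealZeta K s) := by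
    rw [← Real.log_mul (by positivity) (by positivity)]
    congr 1
    field_simp
  have h5 : Real.log ((s - 1) * idealZeta K s) ≤ Real.log A :=
    Real.log_le_log (by positivity) (hA s hs1 hs2)
  have h6 : Real.log c ≤ Real.log ((s - 1) * idealZeta K s) :=
    Real.log_le_log hc0 (hc s hs1 hs2)
  have h7 : 0 ≤ primeZeta K 2 := tsum_nonneg fun v => Real.rpow_nonneg (Nat.cast_nonneg _) _
  have h8 : 0 ≤ Real.log 2 := Real.log_nonneg (by norm_num)
  have h9 := le_abs_self (Real.log A)
  have h10 := neg_abs_le (Real.log c)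
  have h11 := abs_nonneg (Real.log A)
  have h12 := abs_nonneg (Real.log c)
  rw [abs_le] at h1 ⊢
  constructor <;> linarith [h1.1, h1.2]

end Fermat.Agent.GR.G
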