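import Mathlib

/-!
# GR-G / ALG2 : an arithmetic Frobenius at an unramified prime generates the decomposition group
-/

set_option autoImplicit false

open NumberField
open scoped Pointwise

namespace Fermat.Agent.GR.G

variable (L : Type*) [Field L] [NumberField L] [IsGalois ℚ L]

/-- A finite field all of whose elements satisfy `x ^ (p ^ j) = x` has at most `p ^ j` elements. -/
theorem countFrob_card_le {k : Type*} [Field k] [Finite k] (p j : ℕ) (hp : 1 < p) (hj : j ≠ 0)
    (h : ∀ x : k, x ^ p ^ j = x) : Nat.card k ≤ p ^ j := by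
  classical
  have := Fintype.ofFinite k
  have hne := FiniteField.X_pow_card_pow_sub_X_ne_zero k hj hp
  have hdeg := FiniteField.X_pow_card_pow_sub_X_natDegree_eq k hj hp
  have hsub : (Finset.univ : Finset k) ⊆ (Polynomial.X ^ p ^ j - Polynomial.X : Polynomial k).roots.toFinset := by
    intro x _
    rw [Multiset.mem_toFinset, Polynomial.mem_roots hne]
    simp [Polynomial.IsRoot, h x]
  calc Nat.card k = (Finset.univ : Finset k).card := by
        rw [Finset.card_univ, Nat.card_eq_fintype_card]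
    _ ≤ (Polynomial.X ^ p ^ j - Polynomial.X : Polynomial k).roots.toFinset.card :=
        Finset.card_le_card hsub
    _ ≤ (Polynomial.X ^ p ^ j - Polynomial.X : Polynomial k).roots.card :=
        Multiset.toFinset_card_le _
    _ ≤ (Polynomial.X ^ p ^ j - Polynomial.X : Polynomial k).natDegree := Polynomial.card_roots' _
    _ = p ^ j := hdeg

theorem zpowers_eq_stabilizer (p : ℕ) (hp : p.Prime) (hunr : ¬ (p : ℤ) ∣ NumberField.discr L)
    (P : Ideal (𝓞 L)) (hP : P.IsPrime) (hpP : (p : 𝓞 L) ∈ P) (φ : L ≃ₐ[ℚ] L)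
    (hφ : ∀ x : 𝓞 L, φ • x - x ^ p ∈ P) :
    Subgroup.zpowers φ = MulAction.stabilizer (L ≃ₐ[ℚ] L) P := by
  have hp' : Prime (p : ℤ) := Nat.prime_iff_prime_int.mp hp
  have hprime : (Ideal.span {(p : ℤ)}).IsPrime :=
    (Ideal.span_singleton_prime hp'.ne_zero).mpr hp'
  have hlo : P.LiesOver (Ideal.span {(p : ℤ)}) :=
    (Ideal.liesOver_span_iff Ideal.IsPrime.ne_top' hp').mpr (by simpa using hpP)
  have : Fact p.Prime := ⟨hp⟩
  have hunrP : Algebra.IsUnramifiedAt ℤ P :=
    (NumberField.not_dvd_discr_iff_forall_mem L (𝓞 L) hp').1 hunr P hP (by simpa using hpP)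
  have hcard : Nat.card (MulAction.stabilizer (L ≃ₐ[ℚ] L) P) = P.inertiaDeg ℤ := by
    rw [Ideal.card_stabilizer_eq (Ideal.span {(p : ℤ)}) P,
      Ideal.ramificationIdxIn_eq_ramificationIdx (Ideal.span {(p : ℤ)}) P (L ≃ₐ[ℚ] L),
      Ideal.inertiaDegIn_eq_inertiaDeg (Ideal.span {(p : ℤ)}) P (L ≃ₐ[ℚ] L),
      Ideal.ramificationIdx_eq_one_iff.2 hunrP, one_mul]
  have hunder : P.under ℤ = Ideal.span {(p : ℤ)} := hlo.over.symm
  have hfrob : IsArithFrobAt ℤ φ P := by
    intro x
    rw [hunder, Int.card_ideal_quot]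
    exact hφ x
  have hle : Subgroup.zpowers φ ≤ MulAction.stabilizer (L ≃ₐ[ℚ] L) P := by
    rw [Subgroup.zpowers_le]
    exact hfrob.mem_stabilizer
  apply Subgroup.eq_of_le_of_card_ge hle
  rw [hcard, Nat.card_zpowers]
  -- iterate the Frobenius congruence
  have hiter : ∀ (j : ℕ) (x : 𝓞 L), (φ ^ j) • x - x ^ p ^ j ∈ P := by
    intro j
    induction j with
    | zero => intro x; simp
    | succ j ih =>
      intro x
      have h1 := ih (φ • x)
      have h2 : (φ • x) ^ p ^ j - (x ^ p) ^ p ^ j ∈ P :=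
        Ideal.mem_of_dvd _ (sub_dvd_pow_sub_pow _ _ _) (hφ x)
      have h3 := add_mem h1 h2
      have e : (φ ^ j) • φ • x - (φ • x) ^ p ^ j + ((φ • x) ^ p ^ j - (x ^ p) ^ p ^ j) =
          (φ ^ (j + 1)) • x - x ^ p ^ (j + 1) := by
        rw [pow_succ φ j, mul_smul, pow_succ' p j, pow_mul]
        ring
      rwa [e] at h3
  have hj0 : orderOf φ ≠ 0 := (orderOf_pos φ).ne'
  have hmax : P.IsMaximal := hP.isMaximal (by
    intro h
    rw [h] at hpP
    have : (p : 𝓞 L) = 0 := by simpa using hpP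
    exact hp.ne_zero (by exact_mod_cast this))
  let _ : Field (𝓞 L ⧸ P) := Ideal.Quotient.field P
  have hfin : Finite (𝓞 L ⧸ P) := by
    apply Ideal.finiteQuotientOfFreeOfNeBot
    intro h
    rw [h] at hpP
    have : (p : 𝓞 L) = 0 := by simpa using hpP
    exact hp.ne_zero (by exact_mod_cast this)
  have hk : Nat.card (𝓞 L ⧸ P) ≤ p ^ orderOf φ := by
    apply countFrob_card_le p (orderOf φ) hp.one_lt hj0
    intro x
    obtain ⟨x, rfl⟩ := Ideal.Quotient.mk_surjective x
    have h1 := hiter (orderOf φ) x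
    rw [pow_orderOf_eq_one, one_smul] at h1
    rw [← map_pow]
    exact ((Ideal.Quotient.eq).2 h1).symm
  have hN : Nat.card (𝓞 L ⧸ P) = p ^ P.inertiaDeg ℤ := by
    have := Ideal.natAbs_pow_inertiaDeg (p : ℤ) P
    rw [Int.natAbs_natCast] at this
    rw [this]
    rfl
  rw [hN] at hk
  exact (Nat.pow_le_pow_iff_right hp.one_lt).1 hk

end Fermat.Agent.GR.G
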