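import Mathlib
import Fermat.Agent.GR.G.Defs
import Fermat.Agent.GR.G.CountFrob

/-!
# GR-G / ALG : counting primes of degree one in fixed fields

`L/ℚ` finite Galois with group `G`, `p` a prime not dividing the discriminant of `L`.
`count_fixedField`: the ideals of norm `p` of the fixed field of `H` correspond to the `H`-orbits
of primes `P` of `L` above `p` whose decomposition group lies in `H`.
(`zpowers_eq_stabilizer` is in `CountFrob.lean`.)
-/

set_option autoImplicit false

open NumberField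
open scoped Pointwise

namespace Fermat.Agent.GR.G

variable (L : Type*) [Field L] [NumberField L] [IsGalois ℚ L]

theorem count_isGaloisGroup (H : Subgroup (L ≃ₐ[ℚ] L)) :
    IsGaloisGroup H (𝓞 (IntermediateField.fixedField H)) (𝓞 L) := by
  have : IsGaloisGroup H (IntermediateField.fixedField H) L :=
    IsGaloisGroup.subgroup (L ≃ₐ[ℚ] L) ℚ L H
  exact IsGaloisGroup.of_isFractionRing H (𝓞 (IntermediateField.fixedField H)) (𝓞 L)
    (IntermediateField.fixedField H) L

theorem count_span_isPrime {p : ℕ} (hp : p.Prime) : (Ideal.span {(p : ℤ)}).IsPrime := by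
  rw [Ideal.span_singleton_prime (by exact_mod_cast hp.ne_zero)]
  exact Nat.prime_iff_prime_int.mp hp

theorem count_liesOver {K : Type*} [Field K] [NumberField K] {p : ℕ} (hp : p.Prime)
    (P : Ideal (𝓞 K)) [P.IsPrime] (hpP : (p : 𝓞 K) ∈ P) : P.LiesOver (Ideal.span {(p : ℤ)}) :=
  (Ideal.liesOver_span_iff Ideal.IsPrime.ne_top' (Nat.prime_iff_prime_int.mp hp)).mpr
    (by simpa using hpP)

variable {L}

theorem count_inertia_eq_bot {p : ℕ} (hp : p.Prime) (hunr : ¬ (p : ℤ) ∣ NumberField.discr L)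
    (P : Ideal (𝓞 L)) [P.IsPrime] (hpP : (p : 𝓞 L) ∈ P) :
    P.inertia (L ≃ₐ[ℚ] L) = ⊥ := by
  have := count_span_isPrime hp
  have := count_liesOver hp P hpP
  rw [← Subgroup.card_eq_one, Ideal.card_inertia_eq_ramificationIdxIn (Ideal.span {(p : ℤ)}) P,
    Ideal.ramificationIdxIn_eq_ramificationIdx (Ideal.span {(p : ℤ)}) P (L ≃ₐ[ℚ] L),
    Ideal.ramificationIdx_eq_one_iff]
  exact (NumberField.not_dvd_discr_iff_forall_mem L (𝓞 L) (Nat.prime_iff_prime_int.mp hp)).mp hunr
    P ‹_› (by simpa using hpP)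

theorem count_card_stabilizer {p : ℕ} (hp : p.Prime) (hunr : ¬ (p : ℤ) ∣ NumberField.discr L)
    (P : Ideal (𝓞 L)) [P.IsPrime] (hpP : (p : 𝓞 L) ∈ P) :
    Nat.card (MulAction.stabilizer (L ≃ₐ[ℚ] L) P) = P.inertiaDeg ℤ := by
  have := count_span_isPrime hp
  have := count_liesOver hp P hpP
  rw [Ideal.card_stabilizer_eq_card_inertia_mul_finrank (Ideal.span {(p : ℤ)}) P,
    count_inertia_eq_bot hp hunr P hpP]
  simp

theorem count_card_stabilizer_sub {p : ℕ} (hp : p.Prime) (hunr : ¬ (p : ℤ) ∣ NumberField.discr L)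
    (H : Subgroup (L ≃ₐ[ℚ] L)) (P : Ideal (𝓞 L)) [P.IsPrime] (hpP : (p : 𝓞 L) ∈ P) :
    Nat.card (MulAction.stabilizer H P) = P.inertiaDeg (𝓞 (IntermediateField.fixedField H)) := by
  have := count_isGaloisGroup L H
  have h1 : P.inertia H = ⊥ := by
    have := AddSubgroup.subgroupOf_inertia P.toAddSubgroup (G := (L ≃ₐ[ℚ] L)) H
    have h2 := count_inertia_eq_bot hp hunr P hpP
    unfold Ideal.inertia at h2 ⊢
    rw [← this, h2, Subgroup.bot_subgroupOf]
  have key := Ideal.card_stabilizer_eq_card_inertia_mul_finrank (G := H)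
    (P.under (𝓞 (IntermediateField.fixedField H))) P
  rw [h1, Subgroup.card_bot, one_mul] at key
  exact key

theorem count_card_subgroupOf_eq_iff {G : Type*} [Group G] [Finite G] (D H : Subgroup G) :
    Nat.card (D.subgroupOf H) = Nat.card D ↔ D ≤ H := by
  constructor
  · intro h
    have h1 : Nat.card (D.subgroupOf H) = Nat.card (D ⊓ H : Subgroup G) := by
      rw [← Subgroup.inf_subgroupOf_right]
      exact Nat.card_congr (Subgroup.subgroupOfEquivOfLe inf_le_right).toEquiv
    have h2 : (D ⊓ H : Subgroup G) = D :=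
      Subgroup.eq_of_le_of_card_ge inf_le_left (by rw [← h1, h])
    exact h2 ▸ inf_le_right
  · intro h
    exact Nat.card_congr (Subgroup.subgroupOfEquivOfLe h).toEquiv

theorem count_absNorm_under_eq_iff {p : ℕ} (hp : p.Prime)
    (hunr : ¬ (p : ℤ) ∣ NumberField.discr L)
    (H : Subgroup (L ≃ₐ[ℚ] L)) (P : Ideal (𝓞 L)) [P.IsPrime] (hpP : (p : 𝓞 L) ∈ P) :
    Ideal.absNorm (P.under (𝓞 (IntermediateField.fixedField H))) = p ↔
      MulAction.stabilizer (L ≃ₐ[ℚ] L) P ≤ H := by
  set q := P.under (𝓞 (IntermediateField.fixedField H)) with hq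
  have hpq : (p : 𝓞 (IntermediateField.fixedField H)) ∈ q := by
    rw [hq, Ideal.under_def, Ideal.mem_comap]
    simpa using hpP
  have := count_liesOver hp q hpq
  have h1 := Ideal.natAbs_pow_inertiaDeg (p : ℤ) q
  have h2 := Ideal.inertiaDeg_tower (R := ℤ) q P
  have h3 := count_card_stabilizer hp hunr P hpP
  have h4 := count_card_stabilizer_sub hp hunr H P hpP
  have h5 : MulAction.stabilizer H P =
      (MulAction.stabilizer (L ≃ₐ[ℚ] L) P).subgroupOf H := by
    ext h
    simp [Subgroup.mem_subgroupOf, MulAction.mem_stabilizer_iff, Subgroup.smul_def]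
  rw [← count_card_subgroupOf_eq_iff, ← h5, h3, h4, ← h1, h2, Int.natAbs_natCast]
  have hpos : 0 < P.inertiaDeg (𝓞 (IntermediateField.fixedField H)) := by
    rw [← h4]; exact Nat.card_pos
  constructor
  · intro h
    have : q.inertiaDeg ℤ = 1 := Nat.pow_right_injective hp.two_le (by simpa using h)
    rw [this, one_mul]
  · intro h
    have : q.inertiaDeg ℤ = 1 := by
      have h' : 1 * P.inertiaDeg (𝓞 (IntermediateField.fixedField H)) =
        q.inertiaDeg ℤ * P.inertiaDeg (𝓞 (IntermediateField.fixedField H)) := by rw [one_mul]; exact h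
      exact (Nat.eq_of_mul_eq_mul_right hpos h').symm
    rw [this, pow_one]

/-- Abstract orbit counting. -/
theorem count_abstract {G X Y : Type*} [Group G] [Finite G] [MulAction G X] (H : Subgroup G)
    (d : ℕ) (XH : Set X) [Finite XH] (π : XH → Y) (hπ : Function.Surjective π)
    (hstab : ∀ x ∈ XH, MulAction.stabilizer G x ≤ H)
    (hcard : ∀ x ∈ XH, Nat.card (MulAction.stabilizer G x) = d)
    (hsmul : ∀ x ∈ XH, ∀ h ∈ H, h • x ∈ XH)
    (hfib : ∀ x x' : XH, π x = π x' ↔ ∃ h ∈ H, h • (x : X) = x') :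
    Nat.card Y * Nat.card H = d * Nat.card XH := by
  classical
  have : Fintype XH := Fintype.ofFinite _
  have : Finite Y := Finite.of_surjective π hπ
  choose s hs using hπ
  let Φ : Y × H → XH := fun a => ⟨(a.2 : G) • (s a.1 : X), hsmul _ (s a.1).2 _ a.2.2⟩
  have hΦ : ∀ a, π (Φ a) = a.1 := by
    intro a
    rw [← hs a.1]
    exact ((hfib (s a.1) (Φ a)).mpr ⟨a.2, a.2.2, rfl⟩).symm
  have hfibre : ∀ x : XH, Nat.card {a // Φ a = x} = d := by
    intro x
    obtain ⟨h₀, hh₀, hx⟩ := (hfib (s (π x)) x).mp (hs (π x))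
    rw [← hcard (s (π x)) (s (π x)).2]
    refine Nat.card_congr ?_
    refine
      { toFun := fun a => ⟨h₀⁻¹ * (a.1.2 : G), ?_⟩
        invFun := fun g => ⟨(π x, ⟨h₀ * g.1, H.mul_mem hh₀ (hstab _ (s (π x)).2 g.2)⟩), ?_⟩
        left_inv := ?_
        right_inv := ?_ }
    · have h1 : a.1.1 = π x := by rw [← hΦ a.1, a.2]
      have h2 : (a.1.2 : G) • (s (π x) : X) = x := by
        have := congrArg Subtype.val a.2
        rw [← h1]; exact this
      rw [MulAction.mem_stabilizer_iff, mul_smul, h2, ← hx, inv_smul_smul]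
    · apply Subtype.ext
      show (h₀ * g.1) • (s (π x) : X) = x
      rw [mul_smul, MulAction.mem_stabilizer_iff.mp g.2, hx]
    · intro a
      have h1 : a.1.1 = π x := by rw [← hΦ a.1, a.2]
      apply Subtype.ext
      apply Prod.ext
      · exact h1.symm
      · apply Subtype.ext
        simp
    · intro g
      apply Subtype.ext
      simp
  calc Nat.card Y * Nat.card H = Nat.card (Y × H) := (Nat.card_prod _ _).symm
    _ = Nat.card (Σ x : XH, {a // Φ a = x}) := (Nat.card_congr (Equiv.sigmaFiberEquiv Φ)).symm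
    _ = ∑ x : XH, Nat.card {a // Φ a = x} := Nat.card_sigma
    _ = d * Nat.card XH := by
      simp [hfibre, mul_comm]

variable (L)

theorem count_fixedField (p : ℕ) (hp : p.Prime) (hunr : ¬ (p : ℤ) ∣ NumberField.discr L) :
    ∃ d : ℕ, ∀ H : Subgroup (L ≃ₐ[ℚ] L),
      cnt (IntermediateField.fixedField H) p * Nat.card H =
        d * Nat.card {P : Ideal (𝓞 L) // P.IsPrime ∧ (p : 𝓞 L) ∈ P ∧
          MulAction.stabilizer (L ≃ₐ[ℚ] L) P ≤ H} := by
  refine ⟨(Ideal.span {(p : ℤ)}).inertiaDegIn (𝓞 L), fun H => ?_⟩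
  have hpp := count_span_isPrime hp
  have hGal := count_isGaloisGroup L H
  let XH : Set (Ideal (𝓞 L)) := {P | P.IsPrime ∧ (p : 𝓞 L) ∈ P ∧
    MulAction.stabilizer (L ≃ₐ[ℚ] L) P ≤ H}
  have hfin : Finite XH := by
    have h1 : ((Ideal.span {(p : ℤ)}).primesOver (𝓞 L)).Finite :=
      Algebra.QuasiFinite.finite_primesOver _
    refine (h1.subset ?_).to_subtype
    intro P hP
    have := hP.1
    exact ⟨hP.1, count_liesOver hp P hP.2.1⟩
  let π : XH → {I : Ideal (𝓞 (IntermediateField.fixedField H)) // Ideal.absNorm I = p} :=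
    fun P => ⟨P.1.under (𝓞 (IntermediateField.fixedField H)),
      have := P.2.1
      (count_absNorm_under_eq_iff hp hunr H P.1 P.2.2.1).mpr P.2.2.2⟩
  refine count_abstract H _ XH π ?_ (fun P hP => hP.2.2) ?_ ?_ ?_
  · rintro ⟨I, hI⟩
    have hIp : I.IsPrime := Ideal.isPrime_of_irreducible_absNorm (hI ▸ hp)
    have hI0 : I ≠ ⊥ := by
      rintro rfl
      rw [Ideal.absNorm_bot] at hI
      exact hp.ne_zero hI.symm
    have hIm : I.IsMaximal := hIp.isMaximal hI0
    obtain ⟨P, hPm, hPI⟩ := Ideal.exists_maximal_ideal_liesOver_of_isIntegral (S := 𝓞 L) I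
    have hPp : P.IsPrime := hPm.isPrime
    have hund : P.under (𝓞 (IntermediateField.fixedField H)) = I := hPI.over.symm
    have hpI : (p : 𝓞 (IntermediateField.fixedField H)) ∈ I := hI ▸ Ideal.absNorm_mem I
    have hpP : (p : 𝓞 L) ∈ P := by
      rw [← hund, Ideal.under_def, Ideal.mem_comap] at hpI
      simpa using hpI
    refine ⟨⟨P, hPp, hpP, (count_absNorm_under_eq_iff hp hunr H P hpP).mp (hund ▸ hI)⟩, ?_⟩
    exact Subtype.ext hund
  · intro P hP
    have := hP.1
    have := count_liesOver hp P hP.2.1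
    rw [count_card_stabilizer hp hunr P hP.2.1,
      Ideal.inertiaDegIn_eq_inertiaDeg (Ideal.span {(p : ℤ)}) P (L ≃ₐ[ℚ] L)]
  · intro P hP h hh
    have := hP.1
    refine ⟨inferInstance, ?_, ?_⟩
    · have h1 : h • (p : 𝓞 L) ∈ h • P := Ideal.smul_mem_pointwise_smul _ _ _ hP.2.1
      have h2 : h • (p : 𝓞 L) = (p : 𝓞 L) := map_natCast (MulSemiringAction.toRingHom _ (𝓞 L) h) p
      rwa [h2] at h1
    · rw [MulAction.stabilizer_smul_eq_stabilizer_map_conj]
      rintro _ ⟨g, hg, rfl⟩
      exact H.mul_mem (H.mul_mem hh (hP.2.2 hg)) (H.inv_mem hh)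
  · intro P P'
    have := P.2.1
    have := P'.2.1
    constructor
    · intro h
      have h' : P.1.under (𝓞 (IntermediateField.fixedField H)) =
          P'.1.under (𝓞 (IntermediateField.fixedField H)) := congrArg Subtype.val h
      obtain ⟨g, hg⟩ := Algebra.IsInvariant.exists_smul_of_under_eq
        (𝓞 (IntermediateField.fixedField H)) (𝓞 L) H P.1 P'.1 h'
      exact ⟨g, g.2, hg.symm⟩
    · rintro ⟨h, hh, hP⟩
      apply Subtype.ext
      show P.1.under (𝓞 (IntermediateField.fixedField H)) =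
          P'.1.under (𝓞 (IntermediateField.fixedField H))
      rw [← hP]
      exact (Ideal.under_smul (𝓞 (IntermediateField.fixedField H)) P.1 (⟨h, hh⟩ : H)).symm

end Fermat.Agent.GR.G
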