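import Mathlib

/-!
# GR-G / COMB : inclusion-exclusion for the generators of a cyclic group

`σ` an element of a finite group, `n = orderOf σ`, `C = zpowers σ`, `HT σ T = zpowers (σ ^ ∏ T)` for a set `T` of prime divisors of `n`.
-/

set_option autoImplicit false


namespace Fermat.Agent.GR.G

open Classical

variable {G : Type*} [Group G] [Finite G] (σ : G)

/-- the subgroup generated by `σ ^ ∏ T`. -/
def HT (T : Finset ℕ) : Subgroup G := Subgroup.zpowers (σ ^ (∏ ℓ ∈ T, ℓ))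

omit [Finite G] in
lemma comb_zpow_mem_iff {e : ℕ} (he : e ∣ orderOf σ) (k : ℤ) :
    σ ^ k ∈ Subgroup.zpowers (σ ^ e) ↔ (e : ℤ) ∣ k := by
  constructor
  · intro h
    obtain ⟨j, hj⟩ := Subgroup.mem_zpowers_iff.mp h
    rw [← zpow_natCast σ e, ← zpow_mul] at hj
    have h1 : σ ^ (k - e * j) = 1 := by rw [zpow_sub, hj, mul_inv_cancel]
    have h2 : (orderOf σ : ℤ) ∣ k - e * j := orderOf_dvd_iff_zpow_eq_one.mpr h1
    have h3 : (e : ℤ) ∣ k - e * j := (Int.natCast_dvd_natCast.mpr he).trans h2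
    have := dvd_add h3 (dvd_mul_right (e : ℤ) j)
    simpa using this
  · rintro ⟨j, rfl⟩
    rw [zpow_mul, zpow_natCast]
    exact Subgroup.zpow_mem_zpowers _ _

omit [Finite G] in
lemma comb_prod_dvd {T : Finset ℕ} (hT : T ⊆ (orderOf σ).primeFactors) :
    ∏ ℓ ∈ T, ℓ ∣ orderOf σ :=
  (Finset.prod_dvd_prod_of_subset _ _ _ hT).trans (Nat.prod_primeFactors_dvd _)

omit [Finite G] in
lemma comb_le_HT_iff {D : Subgroup G} (hD : D ≤ Subgroup.zpowers σ) {T : Finset ℕ}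
    (hT : T ⊆ (orderOf σ).primeFactors) :
    D ≤ HT σ T ↔ ∀ ℓ ∈ T, D ≤ Subgroup.zpowers (σ ^ ℓ) := by
  constructor
  · intro h ℓ hℓ
    refine h.trans ?_
    rw [HT, Subgroup.zpowers_le]
    obtain ⟨m, hm⟩ := Finset.dvd_prod_of_mem (fun x : ℕ => x) hℓ
    rw [hm, pow_mul]
    exact Subgroup.pow_mem _ (Subgroup.mem_zpowers _) _
  · intro h x hx
    obtain ⟨k, rfl⟩ := Subgroup.mem_zpowers_iff.mp (hD hx)
    rw [HT, comb_zpow_mem_iff σ (comb_prod_dvd σ hT)]
    have h1 : ∀ ℓ ∈ T, (ℓ : ℤ) ∣ k := fun ℓ hℓ =>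
      (comb_zpow_mem_iff σ (Nat.dvd_of_mem_primeFactors (hT hℓ)) k).mp (h ℓ hℓ hx)
    have h2 : ∏ ℓ ∈ T, ℓ ∣ k.natAbs := by
      refine Finset.prod_primes_dvd _ ?_ ?_
      · intro ℓ hℓ
        exact (Nat.prime_of_mem_primeFactors (hT hℓ)).prime
      · intro ℓ hℓ
        exact Int.natCast_dvd.mp (h1 ℓ hℓ)
    exact Int.natCast_dvd.mpr h2

lemma comb_eq_iff {D : Subgroup G} (hD : D ≤ Subgroup.zpowers σ) :
    D = Subgroup.zpowers σ ↔
      ∀ ℓ ∈ (orderOf σ).primeFactors, ¬ D ≤ Subgroup.zpowers (σ ^ ℓ) := by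
  constructor
  · rintro rfl ℓ hℓ h
    have h1 : σ ^ (1 : ℤ) ∈ Subgroup.zpowers (σ ^ ℓ) := by
      rw [zpow_one]; exact h (Subgroup.mem_zpowers σ)
    rw [comb_zpow_mem_iff σ (Nat.dvd_of_mem_primeFactors hℓ)] at h1
    have h2 : ℓ ∣ 1 := by exact_mod_cast h1
    exact (Nat.prime_of_mem_primeFactors hℓ).one_lt.ne' (Nat.dvd_one.mp h2)
  · intro h
    by_contra hne
    -- the subgroup of exponents
    let I : AddSubgroup ℤ :=
      { carrier := {k | σ ^ k ∈ D}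
        zero_mem' := by simp [D.one_mem]
        add_mem' := by
          intro a b ha hb
          simp only [Set.mem_ofPred_eq] at *
          rw [zpow_add]; exact D.mul_mem ha hb
        neg_mem' := by
          intro a ha
          simp only [Set.mem_ofPred_eq] at *
          rw [zpow_neg]; exact D.inv_mem ha }
    obtain ⟨g, hg⟩ := Int.subgroup_cyclic I
    have hmem : ∀ k : ℤ, σ ^ k ∈ D ↔ g ∣ k := by
      intro k
      have : k ∈ I ↔ σ ^ k ∈ D := Iff.rfl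
      rw [← this, hg, AddSubgroup.mem_closure_singleton]
      constructor
      · rintro ⟨m, rfl⟩
        exact ⟨m, by simp [mul_comm]⟩
      · rintro ⟨m, rfl⟩
        exact ⟨m, by simp [mul_comm]⟩
    have hn : g ∣ (orderOf σ : ℤ) := by
      rw [← hmem, zpow_natCast, pow_orderOf_eq_one]; exact D.one_mem
    have hn0 : orderOf σ ≠ 0 := (orderOf_pos σ).ne'
    have hg1 : g.natAbs ≠ 1 := by
      intro h1
      apply hne
      refine le_antisymm hD ?_
      rw [Subgroup.zpowers_le]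
      have : σ ^ (1 : ℤ) ∈ D := by
        rw [hmem]
        exact Int.natAbs_dvd_natAbs.mp (by rw [h1]; exact one_dvd _)
      simpa using this
    obtain ⟨ℓ, hℓ, hℓg⟩ := Nat.exists_prime_and_dvd hg1
    have hℓn : ℓ ∣ orderOf σ := by
      have : g.natAbs ∣ orderOf σ := by
        have := Int.natAbs_dvd_natAbs.mpr hn
        simpa using this
      exact hℓg.trans this
    refine h ℓ (Nat.mem_primeFactors.mpr ⟨hℓ, hℓn, hn0⟩) ?_
    intro x hx
    obtain ⟨k, rfl⟩ := Subgroup.mem_zpowers_iff.mp (hD hx)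
    rw [comb_zpow_mem_iff σ hℓn]
    have h1 : g ∣ k := (hmem k).mp hx
    have h2 : (ℓ : ℤ) ∣ g := Int.natCast_dvd.mpr hℓg
    exact h2.trans h1

lemma comb_incl_excl {R : Type*} [CommRing R] (P : Finset ℕ) (χ : ℕ → R) :
    ∑ T ∈ P.powerset, (-1 : R) ^ T.card * ∏ ℓ ∈ T, χ ℓ = ∏ ℓ ∈ P, (1 - χ ℓ) := by
  have h := Finset.prod_add (fun ℓ => - χ ℓ) (fun _ => (1 : R)) P
  have h' : ∏ ℓ ∈ P, (1 - χ ℓ) = ∏ ℓ ∈ P, (- χ ℓ + 1) :=
    Finset.prod_congr rfl fun ℓ _ => by ring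
  rw [h', h]
  refine Finset.sum_congr rfl fun T _ => ?_
  rw [Finset.prod_const_one, mul_one, Finset.prod_neg]

theorem sum_indicator (D : Subgroup G) :
    ∑ T ∈ (orderOf σ).primeFactors.powerset,
      (-1 : ℤ) ^ T.card * (if D ≤ HT σ T then 1 else 0) =
        if D = Subgroup.zpowers σ then 1 else 0 := by
  by_cases hD : D ≤ Subgroup.zpowers σ
  · have h1 : ∀ T ∈ (orderOf σ).primeFactors.powerset,
        (-1 : ℤ) ^ T.card * (if D ≤ HT σ T then 1 else 0) =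
        (-1 : ℤ) ^ T.card * ∏ ℓ ∈ T, (if D ≤ Subgroup.zpowers (σ ^ ℓ) then (1 : ℤ) else 0) := by
      intro T hT
      congr 1
      rw [Finset.prod_ite_zero, Finset.prod_const_one]
      simp only [comb_le_HT_iff σ hD (Finset.mem_powerset.mp hT)]
    rw [Finset.sum_congr rfl h1, comb_incl_excl]
    have h2 : ∀ ℓ ∈ (orderOf σ).primeFactors,
        (1 - (if D ≤ Subgroup.zpowers (σ ^ ℓ) then (1 : ℤ) else 0)) =
          if ¬ D ≤ Subgroup.zpowers (σ ^ ℓ) then 1 else 0 := by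
      intro ℓ _
      by_cases h : D ≤ Subgroup.zpowers (σ ^ ℓ) <;> simp [h]
    rw [Finset.prod_congr rfl h2, Finset.prod_ite_zero, Finset.prod_const_one]
    simp only [comb_eq_iff σ hD]
  · rw [if_neg (fun h => hD h.le)]
    refine Finset.sum_eq_zero fun T _ => ?_
    rw [if_neg, mul_zero]
    intro h
    apply hD
    refine h.trans ?_
    rw [HT, Subgroup.zpowers_le]
    exact Subgroup.pow_mem _ (Subgroup.mem_zpowers _) _

theorem sum_card_pos :
    0 < ∑ T ∈ (orderOf σ).primeFactors.powerset,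
      (-1 : ℝ) ^ T.card * (Nat.card (HT σ T) : ℝ) := by
  have hn0 : orderOf σ ≠ 0 := (orderOf_pos σ).ne'
  have h1 : ∀ T ∈ (orderOf σ).primeFactors.powerset,
      (-1 : ℝ) ^ T.card * (Nat.card (HT σ T) : ℝ) =
        (orderOf σ : ℝ) * ((-1 : ℝ) ^ T.card * ∏ ℓ ∈ T, ((ℓ : ℝ)⁻¹)) := by
    intro T hT
    have hT' := Finset.mem_powerset.mp hT
    have hd := comb_prod_dvd σ hT'
    have hpos : (∏ ℓ ∈ T, ℓ) ≠ 0 := fun h => hn0 (by rw [h] at hd; exact Nat.eq_zero_of_zero_dvd hd)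
    rw [HT, Nat.card_zpowers, orderOf_pow_of_dvd hpos hd, Nat.cast_div hd (by exact_mod_cast hpos),
      Finset.prod_inv_distrib, Nat.cast_prod]
    ring
  rw [Finset.sum_congr rfl h1, ← Finset.mul_sum, comb_incl_excl]
  refine mul_pos (by exact_mod_cast orderOf_pos σ) (Finset.prod_pos fun ℓ hℓ => ?_)
  have h2 : (1 : ℝ) < ℓ := by exact_mod_cast (Nat.prime_of_mem_primeFactors hℓ).one_lt
  have := inv_lt_one_of_one_lt₀ h2
  linarith

end Fermat.Agent.GR.G
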