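import Mathlib
import Fermat.Agent.GR.G.Analytic
import Fermat.Agent.GR.G.Count
import Fermat.Agent.GR.G.InclExcl

/-!
# GR-G / FIN : Frobenius' theorem at finite level
-/

set_option autoImplicit false

open NumberField
open scoped Pointwise

namespace Fermat.Agent.GR.G

open Classical

variable (L : Type*) [Field L] [NumberField L] [IsGalois ℚ L]

omit [IsGalois ℚ L] in
/-- the primes of `𝓞 L` containing `p` are finite in number. -/
theorem finite_primes_containing (p : ℕ) (hp : p.Prime) :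
    Finite {P : Ideal (𝓞 L) // P.IsPrime ∧ (p : 𝓞 L) ∈ P} := by
  have hp' : Prime (p : ℤ) := Nat.prime_iff_prime_int.mp hp
  have hfin := Algebra.QuasiFinite.finite_primesOver (S := 𝓞 L) (Ideal.span {(p : ℤ)})
  have : Finite ((Ideal.span {(p : ℤ)}).primesOver (𝓞 L)) := hfin
  refine Finite.of_injective
    (fun P : {P : Ideal (𝓞 L) // P.IsPrime ∧ (p : 𝓞 L) ∈ P} =>
      (⟨P.1, P.2.1, (Ideal.liesOver_span_iff P.2.1.ne_top hp').mpr (by simpa using P.2.2)⟩ :
        (Ideal.span {(p : ℤ)}).primesOver (𝓞 L))) ?_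
  intro P Q h
  exact Subtype.ext (congrArg (fun x : (Ideal.span {(p : ℤ)}).primesOver (𝓞 L) => x.1) h)

/-- the pointwise identity. -/
theorem sum_cnt_eq_zero (σ : L ≃ₐ[ℚ] L) (p : ℕ) (hp : p.Prime)
    (hunr : ¬ (p : ℤ) ∣ NumberField.discr L)
    (hno : ∀ P : Ideal (𝓞 L), P.IsPrime → (p : 𝓞 L) ∈ P →
      MulAction.stabilizer (L ≃ₐ[ℚ] L) P ≠ Subgroup.zpowers σ) :
    ∑ T ∈ (orderOf σ).primeFactors.powerset,
      (-1 : ℤ) ^ T.card * ((Nat.card (HT σ T) : ℤ) *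
        (cnt (IntermediateField.fixedField (HT σ T)) p : ℤ)) = 0 := by
  obtain ⟨d, hd⟩ := count_fixedField L p hp hunr
  have := finite_primes_containing L p hp
  let _ : Fintype {P : Ideal (𝓞 L) // P.IsPrime ∧ (p : 𝓞 L) ∈ P} := Fintype.ofFinite _
  have hcard : ∀ H : Subgroup (L ≃ₐ[ℚ] L),
      (Nat.card {P : Ideal (𝓞 L) // P.IsPrime ∧ (p : 𝓞 L) ∈ P ∧
          MulAction.stabilizer (L ≃ₐ[ℚ] L) P ≤ H} : ℤ) =
        ∑ x : {P : Ideal (𝓞 L) // P.IsPrime ∧ (p : 𝓞 L) ∈ P},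
          (if MulAction.stabilizer (L ≃ₐ[ℚ] L) x.1 ≤ H then 1 else 0) := by
    intro H
    rw [Finset.sum_boole, Nat.cast_inj, ← Fintype.card_subtype, ← Nat.card_eq_fintype_card]
    refine Nat.card_congr ⟨fun P => ⟨⟨P.1, P.2.1, P.2.2.1⟩, P.2.2.2⟩,
      fun x => ⟨x.1.1, x.1.2.1, x.1.2.2, x.2⟩, fun _ => rfl, fun _ => rfl⟩
  have h1 : ∀ T ∈ (orderOf σ).primeFactors.powerset,
      (-1 : ℤ) ^ T.card * ((Nat.card (HT σ T) : ℤ) *
        (cnt (IntermediateField.fixedField (HT σ T)) p : ℤ)) =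
      (d : ℤ) * ∑ x : {P : Ideal (𝓞 L) // P.IsPrime ∧ (p : 𝓞 L) ∈ P},
        (-1 : ℤ) ^ T.card *
          (if MulAction.stabilizer (L ≃ₐ[ℚ] L) x.1 ≤ HT σ T then 1 else 0) := by
    intro T _
    have h2 := congrArg (Nat.cast : ℕ → ℤ) (hd (HT σ T))
    push_cast at h2
    rw [hcard] at h2
    rw [← Finset.mul_sum, mul_comm (Nat.card (HT σ T) : ℤ), h2]
    ring
  rw [Finset.sum_congr rfl h1, ← Finset.mul_sum, Finset.sum_comm]
  have h3 : ∀ x : {P : Ideal (𝓞 L) // P.IsPrime ∧ (p : 𝓞 L) ∈ P},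
      ∑ T ∈ (orderOf σ).primeFactors.powerset, (-1 : ℤ) ^ T.card *
          (if MulAction.stabilizer (L ≃ₐ[ℚ] L) x.1 ≤ HT σ T then 1 else 0) = 0 := by
    intro x
    rw [sum_indicator σ, if_neg (hno x.1 x.2.1 x.2.2)]
  rw [Finset.sum_congr rfl (fun x _ => h3 x)]
  simp

/-- the same identity for the Dirichlet series. -/
theorem sum_degOneSum_eq_zero (σ : L ≃ₐ[ℚ] L) (R : Finset ℕ)
    (hno : ∀ p : ℕ, p.Prime → p ∉ R → ¬ (p : ℤ) ∣ NumberField.discr L ∧
      ∀ P : Ideal (𝓞 L), P.IsPrime → (p : 𝓞 L) ∈ P →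
      MulAction.stabilizer (L ≃ₐ[ℚ] L) P ≠ Subgroup.zpowers σ) {s : ℝ} (hs : 1 < s) :
    ∑ T ∈ (orderOf σ).primeFactors.powerset,
      (-1 : ℝ) ^ T.card * (Nat.card (HT σ T) : ℝ) *
        degOneSum (IntermediateField.fixedField (HT σ T)) R s = 0 := by
  unfold degOneSum
  simp_rw [← tsum_mul_left]
  rw [← Summable.tsum_finsetSum (fun T _ => (summable_degOneTerm _ R hs).mul_left _)]
  have h0 : ∀ p : ℕ, ∑ T ∈ (orderOf σ).primeFactors.powerset,
      (-1 : ℝ) ^ T.card * (Nat.card (HT σ T) : ℝ) *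
        degOneTerm (IntermediateField.fixedField (HT σ T)) R s p = 0 := by
    intro p
    unfold degOneTerm
    by_cases hp : p.Prime ∧ p ∉ R
    · simp only [if_pos hp]
      have h1 := sum_cnt_eq_zero L σ p hp.1 (hno p hp.1 hp.2).1 (hno p hp.1 hp.2).2
      have h2 := congrArg (fun z : ℤ => (z : ℝ) * (p : ℝ) ^ (-s)) h1
      simp only [Int.cast_zero, zero_mul] at h2
      rw [← h2]
      push_cast
      rw [Finset.sum_mul]
      refine Finset.sum_congr rfl fun T _ => ?_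
      ring
    · simp only [if_neg hp, mul_zero, Finset.sum_const_zero]
  simp_rw [h0]
  exact tsum_zero

/-- Every cyclic subgroup of `Gal(L/ℚ)` is the decomposition group of a prime of `L` above an unramified rational prime
outside any given finite set. -/
theorem exists_stabilizer_eq_zpowers (S : Finset ℕ) (σ : L ≃ₐ[ℚ] L) :
    ∃ p : ℕ, p.Prime ∧ p ∉ S ∧ ¬ (p : ℤ) ∣ NumberField.discr L ∧
      ∃ P : Ideal (𝓞 L), P.IsPrime ∧ (p : 𝓞 L) ∈ P ∧
        MulAction.stabilizer (L ≃ₐ[ℚ] L) P = Subgroup.zpowers σ := by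
  by_contra hcon
  push Not at hcon
  let R : Finset ℕ := S ∪ (NumberField.discr L).natAbs.primeFactors
  have hno : ∀ p : ℕ, p.Prime → p ∉ R → ¬ (p : ℤ) ∣ NumberField.discr L ∧
      ∀ P : Ideal (𝓞 L), P.IsPrime → (p : 𝓞 L) ∈ P →
      MulAction.stabilizer (L ≃ₐ[ℚ] L) P ≠ Subgroup.zpowers σ := by
    intro p hp hpR
    have hpS : p ∉ S := fun h => hpR (Finset.mem_union_left _ h)
    have hpd : ¬ (p : ℤ) ∣ NumberField.discr L := by
      intro h
      apply hpR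
      refine Finset.mem_union_right _ ?_
      rw [Nat.mem_primeFactors]
      refine ⟨hp, Int.natCast_dvd.mp h, ?_⟩
      simpa using NumberField.discr_ne_zero L
    exact ⟨hpd, hcon p hp hpS hpd⟩
  choose B hB using fun T : Finset ℕ =>
    exists_abs_degOneSum_sub_log_le (IntermediateField.fixedField (HT σ T)) R
  set 𝒯 := (orderOf σ).primeFactors.powerset with h𝒯
  set κ : ℝ := ∑ T ∈ 𝒯, (-1 : ℝ) ^ T.card * (Nat.card (HT σ T) : ℝ) with hκ
  have hκ0 : 0 < κ := sum_card_pos σ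
  set B' : ℝ := ∑ T ∈ 𝒯, (Nat.card (HT σ T) : ℝ) * B T with hB'
  have hBnn : ∀ T, 0 ≤ B T := fun T => (abs_nonneg _).trans (hB T 2 (by norm_num) le_rfl)
  have hB'0 : 0 ≤ B' := Finset.sum_nonneg fun T _ => mul_nonneg (Nat.cast_nonneg _) (hBnn T)
  -- choice of `s`
  set x : ℝ := (B' + 1) / κ with hx
  have hx0 : 0 < x := by positivity
  set s : ℝ := 1 + Real.exp (-x) with hs
  have hs1 : 1 < s := by
    have := Real.exp_pos (-x)
    linarith
  have hs2 : s ≤ 2 := by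
    have : Real.exp (-x) ≤ 1 := Real.exp_le_one_iff.mpr (by linarith)
    linarith
  have hlog : Real.log (1 / (s - 1)) = x := by
    have : s - 1 = Real.exp (-x) := by rw [hs]; ring
    rw [this, one_div, ← Real.exp_neg, neg_neg, Real.log_exp]
  have hzero := sum_degOneSum_eq_zero L σ R hno hs1
  have hlow : κ * x - B' ≤ ∑ T ∈ 𝒯, (-1 : ℝ) ^ T.card * (Nat.card (HT σ T) : ℝ) *
        degOneSum (IntermediateField.fixedField (HT σ T)) R s := by
    rw [hκ, hB', Finset.sum_mul, ← Finset.sum_sub_distrib]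
    refine Finset.sum_le_sum fun T _ => ?_
    have h1 := hB T s hs1 hs2
    rw [hlog, abs_le] at h1
    have hc : (0 : ℝ) ≤ (Nat.card (HT σ T) : ℝ) := Nat.cast_nonneg _
    rcases neg_one_pow_eq_or ℝ T.card with h | h <;> rw [h]
    · nlinarith [h1.1, h1.2]
    · nlinarith [h1.1, h1.2]
  rw [hzero] at hlow
  have : κ * x = B' + 1 := by
    rw [hx]; field_simp
  linarith

end Fermat.Agent.GR.G
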