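import Mathlib
import Fermat.Prelude.Def_EllipticCurve_FrobeniusTrace
import Fermat.Prelude.Def_FLTPrelim_Ramification
import Fermat.Agent.Lib.Frobenius
import Fermat.Agent.GR.G.Finite
import Fermat.Agent.GR.G.CountFrob

/-!
# GR-G : Frobenius' density theorem (existence form) for `Gal(ℚ̄/ℚ)`

This replaces Chebotarev in all the applications of project GR: every property used there (value of a character, being scalar,
characteristic polynomial / trace of `ρ σ`) of `σ` modulo an open normal subgroup can be read off from any generator of the cyclic group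
generated by `σ`.
-/

set_option autoImplicit false

open scoped NumberField

namespace Fermat.Agent.GR.G

open Fermat.Agent.Lib.Frobenius

/-- Finite level statement, for an arbitrary `ℚ`-algebra structure, in elementary terms. -/
theorem exists_forall_frob_zpowers_eq (L : Type*) [Field L] [NumberField L] [alg : Algebra ℚ L]
    [IsGalois ℚ L] (S : Finset ℕ) (σ : L ≃ₐ[ℚ] L) :
    ∃ p : ℕ, p.Prime ∧ p ∉ S ∧ ∃ P : Ideal (𝓞 L), P.IsPrime ∧ (p : 𝓞 L) ∈ P ∧
      ∀ φ : L ≃ₐ[ℚ] L, (∀ x : 𝓞 L, ∃ y ∈ P, (y : L) = φ x - (x : L) ^ p) →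
        Subgroup.zpowers φ = Subgroup.zpowers σ := by
  obtain rfl : alg = DivisionRing.toRatAlgebra := Subsingleton.elim _ _
  obtain ⟨p, hp, hpS, hunr, P, hP, hpP, hstab⟩ := exists_stabilizer_eq_zpowers L S σ
  refine ⟨p, hp, hpS, P, hP, hpP, fun φ hφ => ?_⟩
  rw [← hstab]
  refine zpowers_eq_stabilizer L p hp hunr P hP hpP φ fun x => ?_
  obtain ⟨y, hy, hyx⟩ := hφ x
  have : φ • x - x ^ p = y := by
    apply NumberField.RingOfIntegers.ext
    rw [hyx]
    rfl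
  rw [this]
  exact hy

section
variable {K : Type*} [Field K] [Algebra ℚ K] [IsAlgClosure ℚ K]

attribute [-instance] DivisionRing.toRatAlgebra

omit [IsAlgClosure ℚ K] in
/-- a place of `K` above a given prime of the ring of integers of a subfield. -/
theorem exists_valuationSubring_over (F : IntermediateField ℚ K) [NumberField F]
    (P : Ideal (𝓞 F)) (hP : P.IsPrime) :
    ∃ A : ValuationSubring K, ∀ x ∈ P, (((x : 𝓞 F) : F) : K) ∈ A.nonunits := by
  let f : 𝓞 F →+* K := (algebraMap F K).comp (algebraMap (𝓞 F) F)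
  have hf : Function.Injective f :=
    (algebraMap F K).injective.comp NumberField.RingOfIntegers.coe_injective
  let e : 𝓞 F ≃+* f.range := RingEquiv.ofBijective f.rangeRestrict
    ⟨fun a b h => hf (congrArg (Subtype.val : f.range → K) h), f.rangeRestrict_surjective⟩
  have hI : (P.comap (e.symm : f.range →+* 𝓞 F)) ≠ ⊤ := (Ideal.comap_isPrime _ _).ne_top
  obtain ⟨A, -, hA⟩ := Ideal.image_subset_nonunits_valuationSubring _ hI
  refine ⟨A, fun x hx => hA ⟨e x, ?_, rfl⟩⟩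
  show (e.symm (e x)) ∈ P
  rw [RingEquiv.symm_apply_apply]
  exact hx

theorem exists_frobenius_zpowers_eq_aux [CharZero K]
    (F : IntermediateField ℚ K) [hfin : FiniteDimensional ℚ F] [IsGalois ℚ F]
    (S : Finset ℕ) (σ : K ≃ₐ[ℚ] K) :
    ∃ (ℓ : ℕ) (A : ValuationSubring K) (τ : K ≃ₐ[ℚ] K),
      ℓ.Prime ∧ ℓ ∉ S ∧ A.LiesOverPrime ℓ ∧ A.IsFrobeniusAt τ ℓ ∧
        Subgroup.zpowers (AlgEquiv.restrictNormalHom F τ) =
          Subgroup.zpowers (AlgEquiv.restrictNormalHom F σ) := by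
  have hnf : NumberField F :=
    { to_charZero := inferInstance
      to_finiteDimensional := by
        have e : (DivisionRing.toRatAlgebra : Algebra ℚ F) = F.algebra' := Subsingleton.elim _ _
        rw [e]
        exact hfin }
  obtain ⟨p, hp, hpS, P, hP, hpP, hall⟩ :=
    exists_forall_frob_zpowers_eq F S (AlgEquiv.restrictNormalHom F σ)
  obtain ⟨A, hA⟩ := exists_valuationSubring_over F P hP
  have hAp : A.LiesOverPrime p := by
    have := hA _ hpP
    unfold ValuationSubring.LiesOverPrime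
    simpa using this
  obtain ⟨τ, hτ⟩ := exists_isFrobeniusAt_of_liesOver A hp hAp
  refine ⟨p, A, τ, hp, hpS, hAp, hτ, hall _ fun x => ?_⟩
  -- the element `y = φ x - x ^ p` of `𝓞 F`
  have hxi : IsIntegral ℤ ((x : F)) := NumberField.RingOfIntegers.isIntegral_coe x
  have hyi : IsIntegral ℤ (AlgEquiv.restrictNormalHom F τ (x : F) - (x : F) ^ p) :=
    (hxi.map ((AlgEquiv.restrictNormalHom F τ).toAlgHom.restrictScalars ℤ)).sub (hxi.pow p)
  refine ⟨⟨_, hyi⟩, ?_, rfl⟩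
  set y : 𝓞 F := ⟨_, hyi⟩ with hy
  -- its image in `K` is a non-unit of `A`
  have hxA : (((x : F) : K)) ∈ A :=
    isIntegral_mem A (hxi.map (IsScalarTower.toAlgHom ℤ F K))
  have hyK : (((y : F)) : K) = τ ((x : F) : K) - ((x : F) : K) ^ p := by
    have h2 := AlgEquiv.restrictNormal_commutes τ F (x : F)
    show ((AlgEquiv.restrictNormalHom F τ (x : F) - (x : F) ^ p : F) : K) = _
    push_cast
    exact congrArg (· - ((x : F) : K) ^ p) h2
  have hyA : (((y : F)) : K) ∈ A.nonunits := by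
    obtain ⟨hdec, hfrob⟩ := hτ
    have h1 := hfrob (IsLocalRing.residue A ⟨_, hxA⟩)
    rw [← IsLocalRing.ResidueField.residue_smul, ← map_pow, ← sub_eq_zero, ← map_sub,
      IsLocalRing.residue_eq_zero_iff] at h1
    rw [hyK, ValuationSubring.mem_nonunits_iff_exists_mem_maximalIdeal]
    exact ⟨_, h1⟩
  by_contra hyP
  have hP0 : P ≠ ⊥ := by
    intro h
    rw [h, Ideal.mem_bot] at hpP
    exact hp.ne_zero (by exact_mod_cast hpP)
  have hmax : P.IsMaximal := hP.isMaximal hP0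
  obtain ⟨z, w, hw, hz⟩ := hmax.exists_inv hyP
  have hzA : (((z : F)) : K) ∈ A :=
    isIntegral_mem A ((NumberField.RingOfIntegers.isIntegral_coe z).map
      (IsScalarTower.toAlgHom ℤ F K))
  have h1 : (1 : K) ∈ A.nonunits := by
    have h2 : (1 : K) = (((y : F)) : K) * (((z : F)) : K) + (((w : F)) : K) := by
      have := congrArg (fun t : 𝓞 F => (((t : F)) : K)) hz
      simp only [map_add, map_mul, map_one] at this
      push_cast at this
      rw [← this]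
      ring
    rw [h2]
    exact nonunits_add A (nonunits_mul A hyA hzA) (hA w hw)
  rw [ValuationSubring.mem_nonunits_iff, map_one] at h1
  exact lt_irrefl _ h1

theorem exists_frobenius_pow_mem_aux [CharZero K]
    (U : Subgroup (K ≃ₐ[ℚ] K)) (hU : U.Normal) (hUo : IsOpen (U : Set (K ≃ₐ[ℚ] K)))
    (S : Finset ℕ) (σ : K ≃ₐ[ℚ] K) :
    ∃ (ℓ : ℕ) (A : ValuationSubring K) (τ : K ≃ₐ[ℚ] K),
      ℓ.Prime ∧ ℓ ∉ S ∧ A.LiesOverPrime ℓ ∧ A.IsFrobeniusAt τ ℓ ∧
        (∃ k : ℕ, σ⁻¹ * τ ^ k ∈ U) ∧ (∃ j : ℕ, τ⁻¹ * σ ^ j ∈ U) := by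
  have hclosed : IsClosed (U : Set (K ≃ₐ[ℚ] K)) := Subgroup.isClosed_of_isOpen U hUo
  let F : IntermediateField ℚ K := IntermediateField.fixedField U
  have hfix : F.fixingSubgroup = U := InfiniteGalois.fixingSubgroup_fixedField ⟨U, hclosed⟩
  have hfin : FiniteDimensional ℚ F := by
    rw [← InfiniteGalois.isOpen_iff_finite, hfix]
    exact hUo
  have hgal : IsGalois ℚ F := (InfiniteGalois.normal_iff_isGalois F).mp (hfix ▸ hU)
  obtain ⟨ℓ, A, τ, hℓ, hℓS, hA, hτ, hz⟩ := exists_frobenius_zpowers_eq_aux F S σ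
  have hker : ∀ g : K ≃ₐ[ℚ] K, AlgEquiv.restrictNormalHom F g = 1 → g ∈ U := by
    intro g hg
    rw [← hfix, ← F.restrictNormalHom_ker]
    exact hg
  have key : ∀ a b : K ≃ₐ[ℚ] K, AlgEquiv.restrictNormalHom F a ∈
      Subgroup.zpowers (AlgEquiv.restrictNormalHom F b) → ∃ k : ℕ, a⁻¹ * b ^ k ∈ U := by
    intro a b hab
    rw [← mem_powers_iff_mem_zpowers] at hab
    obtain ⟨k, hk⟩ := hab
    refine ⟨k, hker _ ?_⟩
    rw [map_mul, map_inv, map_pow]
    simp only at hk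
    rw [hk, inv_mul_cancel]
  refine ⟨ℓ, A, τ, hℓ, hℓS, hA, hτ, key σ τ ?_, key τ σ ?_⟩
  · rw [hz]; exact Subgroup.mem_zpowers _
  · rw [← hz]; exact Subgroup.mem_zpowers _

end

theorem exists_frobenius_zpowers_eq_alg [alg : Algebra ℚ (AlgebraicClosure ℚ)]
    (F : IntermediateField ℚ (AlgebraicClosure ℚ)) [algF : Algebra ℚ F]
    [st : IsScalarTower ℚ F (AlgebraicClosure ℚ)] [hfin : FiniteDimensional ℚ F]
    [hgal : IsGalois ℚ F]
    (S : Finset ℕ) (σ : AlgebraicClosure ℚ ≃ₐ[ℚ] AlgebraicClosure ℚ) :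
    ∃ (ℓ : ℕ) (A : ValuationSubring (AlgebraicClosure ℚ))
      (τ : AlgebraicClosure ℚ ≃ₐ[ℚ] AlgebraicClosure ℚ),
      ℓ.Prime ∧ ℓ ∉ S ∧ A.LiesOverPrime ℓ ∧ A.IsFrobeniusAt τ ℓ ∧
        Subgroup.zpowers (AlgEquiv.restrictNormalHom F τ) =
          Subgroup.zpowers (AlgEquiv.restrictNormalHom F σ) := by
  obtain rfl : alg = AlgebraicClosure.instAlgebra ℚ := Subsingleton.elim _ _
  obtain rfl : algF = F.algebra' := Subsingleton.elim _ _
  exact @exists_frobenius_zpowers_eq_aux (AlgebraicClosure ℚ) _ (AlgebraicClosure.instAlgebra ℚ)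
    inferInstance _ F hfin hgal S σ

theorem exists_frobenius_pow_mem_alg [alg : Algebra ℚ (AlgebraicClosure ℚ)]
    (U : Subgroup (AlgebraicClosure ℚ ≃ₐ[ℚ] AlgebraicClosure ℚ)) (hU : U.Normal)
    (hUo : IsOpen (U : Set (AlgebraicClosure ℚ ≃ₐ[ℚ] AlgebraicClosure ℚ)))
    (S : Finset ℕ) (σ : AlgebraicClosure ℚ ≃ₐ[ℚ] AlgebraicClosure ℚ) :
    ∃ (ℓ : ℕ) (A : ValuationSubring (AlgebraicClosure ℚ))
      (τ : AlgebraicClosure ℚ ≃ₐ[ℚ] AlgebraicClosure ℚ),
      ℓ.Prime ∧ ℓ ∉ S ∧ A.LiesOverPrime ℓ ∧ A.IsFrobeniusAt τ ℓ ∧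
        (∃ k : ℕ, σ⁻¹ * τ ^ k ∈ U) ∧ (∃ j : ℕ, τ⁻¹ * σ ^ j ∈ U) := by
  obtain rfl : alg = AlgebraicClosure.instAlgebra ℚ := Subsingleton.elim _ _
  exact @exists_frobenius_pow_mem_aux (AlgebraicClosure ℚ) _ (AlgebraicClosure.instAlgebra ℚ)
    inferInstance _ U hU hUo S σ

/-- **Frobenius' theorem.**  `F/ℚ` finite Galois inside `ℚ̄`, `S` a finite set of primes, `σ ∈ Gal(ℚ̄/ℚ)`.  There are a prime `ℓ ∉ S`, a place
`A` above `ℓ` and a Frobenius element `τ` at `A` such that `τ|F` and `σ|F` generate the same subgroup of `Gal(F/ℚ)`. -/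
theorem exists_frobenius_zpowers_eq
    (F : IntermediateField ℚ (AlgebraicClosure ℚ)) [FiniteDimensional ℚ F] [IsGalois ℚ F]
    (S : Finset ℕ) (σ : AlgebraicClosure ℚ ≃ₐ[ℚ] AlgebraicClosure ℚ) :
    ∃ (ℓ : ℕ) (A : ValuationSubring (AlgebraicClosure ℚ))
      (τ : AlgebraicClosure ℚ ≃ₐ[ℚ] AlgebraicClosure ℚ),
      ℓ.Prime ∧ ℓ ∉ S ∧ A.LiesOverPrime ℓ ∧ A.IsFrobeniusAt τ ℓ ∧
        Subgroup.zpowers (AlgEquiv.restrictNormalHom F τ) =
          Subgroup.zpowers (AlgEquiv.restrictNormalHom F σ) :=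
  exists_frobenius_zpowers_eq_alg F S σ

/-- The same for an open normal subgroup `U`: `σ ∈ τ^k U` and `τ ∈ σ^j U`. -/
theorem exists_frobenius_pow_mem
    (U : Subgroup (AlgebraicClosure ℚ ≃ₐ[ℚ] AlgebraicClosure ℚ)) (hU : U.Normal)
    (hUo : IsOpen (U : Set (AlgebraicClosure ℚ ≃ₐ[ℚ] AlgebraicClosure ℚ)))
    (S : Finset ℕ) (σ : AlgebraicClosure ℚ ≃ₐ[ℚ] AlgebraicClosure ℚ) :
    ∃ (ℓ : ℕ) (A : ValuationSubring (AlgebraicClosure ℚ))
      (τ : AlgebraicClosure ℚ ≃ₐ[ℚ] AlgebraicClosure ℚ),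
      ℓ.Prime ∧ ℓ ∉ S ∧ A.LiesOverPrime ℓ ∧ A.IsFrobeniusAt τ ℓ ∧
        (∃ k : ℕ, σ⁻¹ * τ ^ k ∈ U) ∧ (∃ j : ℕ, τ⁻¹ * σ ^ j ∈ U) :=
  exists_frobenius_pow_mem_alg U hU hUo S σ

end Fermat.Agent.GR.G
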